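/-
S36, block [NEW at q ∣ N], function side, node NEW-PA (helper7): THE KUMMER MAP INTERTWINES THE
PUSH-FORWARD `α_* : J₀(N m) → J₀(N)` WITH THE TRANSFER, FOR EVERY `N` AND EVERY `m` (no coprimality).

This is the chain `N4F/Tors/NormCosets` → `P4/KummerPush` → `P4/KummerPushPic` →
`P4/KummerPushBetaPic.kappa_alphaPush` retyped WITHOUT the hypothesis `ℓ ∤ N` (and without
primality): the only use of `ℓ ∤ N` there is `finrankAlong (heckeAlphaBar L N ℓ) = ℓ + 1`, needed for
finiteness and for the equality of the degrees over `Q̄` and over `ℂ`; both follow for all `(N, m)`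
from `DegreeLevelRaise.psi_mul_finrank_heckeAlphaBar : ψ(N) · [L F_{N m} : α(L F_N)] = ψ(N m)`.

* `finrankAlong_alpha_mul`, `finrankAlong_alpha_eq`, `finiteAlong_alpha`;
* `barToC_norm` : the norm along `α` commutes with `Q̄ → ℂ`;
* `isRootDatum_norm`, `kummerChar_norm_alpha` : function level, any right transversal `δ_j` of
  `Γ₀(N m)` in `Γ₀(N)` with bookkeeping `δ_j g = coc(g, j) δ_{perm(g, j)}`;
* `kappa_alphaPush` : `κ^N_n (α_* y)(g) = ∑_j κ^{N m}_n (y)(coc(g, j))` for the explicit Kummer maps.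
-/
import Mathlib
import Fermat.Agent.P4.KummerPushBetaPic

set_option autoImplicit false
set_option linter.style.haveILetI false
set_option linter.unusedSectionVars false

open UpperHalfPlane MatrixGroups CongruenceSubgroup ModularForm
open Matrix.SpecialLinearGroup
open AlgebraicCurve ModularCurve
open scoped Manifold

noncomputable section

namespace Fermat.Agent.S36.New.PushAlphaQ

open Fermat.Agent.M2 Fermat.Agent.N4F.Tors.Kummer Fermat.Agent.N4F.Tors
open Fermat.Agent.N4F.Res Fermat.Agent.N4F.E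
open Fermat.Agent.N4F.Tors.Descent Fermat.Agent.N4F.Tors.BaseChange
open Fermat.Agent.N4F.Tors.KummerFinal Fermat.Agent.N4F.Tors.HeckeDiv
open Fermat.Agent.N4F.A.LevelMaps Fermat.Agent.N4F.A.HeckeInputsFinal
open Fermat.Agent.S24 Fermat.Agent.S24.FieldIso
open Fermat.Agent.P3G.AuxPrime Fermat.Agent.P4.KummerPush Fermat.Agent.P4.KummerPushPic
open Fermat.Agent.P4.KummerExplicit Fermat.Agent.P4.TatePush Fermat.Agent.P4.Push

local notation "Qb" => AlgebraicClosure ℚ

/-! ## Degrees along `α`, every level -/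

section Degree

variable (N m : ℕ) [NeZero N] [NeZero m]

/-- `ψ(N) · [L·F_{N m} : α(L·F_N)] = ψ(N m)` in the `Along` form. -/
theorem finrankAlong_alpha_mul (L : Type) [Field L] [Algebra ℚ L] (ι' : L →+* ℂ) :
    dedekindPsi N * finrankAlong L (heckeAlphaBar L N m) =
      dedekindPsi (N * m) := by
  letI := algebraAlong (heckeAlphaBar L N m)
  show dedekindPsi N *
    Module.finrank (laurentBaseChange L (modularFunctionFieldFull N))
      (laurentBaseChange L (modularFunctionFieldFull (N * m))) = _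
  rw [DegreeLevelRaise.finrank_eq_finrank_fieldRange (heckeAlphaBar L N m) rfl]
  exact DegreeLevelRaise.psi_mul_finrank_heckeAlphaBar L N m ι'

/-- The degree along `α` does not depend on the field of constants. -/
theorem finrankAlong_alpha_eq (L L' : Type) [Field L] [Algebra ℚ L] [Field L'] [Algebra ℚ L']
    (ι : L →+* ℂ) (ι' : L' →+* ℂ) :
    finrankAlong L (heckeAlphaBar L N m) = finrankAlong L' (heckeAlphaBar L' N m) := by
  have h1 := finrankAlong_alpha_mul N m L ι
  have h2 := finrankAlong_alpha_mul N m L' ι'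
  exact Nat.eq_of_mul_eq_mul_left (Fermat.Agent.N4.ModPolyShape.dedekindPsi_pos N)
    (h1.trans h2.symm)

theorem finrankAlong_alpha_pos (L : Type) [Field L] [Algebra ℚ L] (ι' : L →+* ℂ) :
    0 < finrankAlong L (heckeAlphaBar L N m) := by
  have h := finrankAlong_alpha_mul N m L ι'
  rcases Nat.eq_zero_or_pos (finrankAlong L (heckeAlphaBar L N m)) with h0 | h0
  · rw [h0, mul_zero] at h
    exact absurd h.symm (Fermat.Agent.N4.ModPolyShape.dedekindPsi_pos (N * m)).ne'
  · exact h0

theorem finiteAlong_alpha (L : Type) [Field L] [Algebra ℚ L] (ι' : L →+* ℂ) :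
    FiniteAlong L (heckeAlphaBar L N m) := by
  letI := algebraAlong (heckeAlphaBar L N m)
  show Module.Finite (laurentBaseChange L (modularFunctionFieldFull N))
    (laurentBaseChange L (modularFunctionFieldFull (N * m)))
  apply Module.finite_of_finrank_pos
  exact finrankAlong_alpha_pos N m L ι'

end Degree

/-! ## Descent `Q̄ → ℂ` -/

section Descent

variable (N m : ℕ) [NeZero N] [NeZero m] (ι : Qb →+* ℂ)

lemma barToC_alpha (x : modularFunctionFieldBar N) :
    barToC (N * m) ι (heckeAlphaBar Qb N m x) = heckeAlphaBar ℂ N m (barToC N ι x) := by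
  apply Subtype.ext
  rw [coe_barToC, coe_heckeAlphaBar, coe_heckeAlphaBar, coe_barToC]

/-- **The norm along `α` commutes with `Q̄ → ℂ`**, every level. -/
theorem barToC_norm (g : modularFunctionFieldBar (N * m)) :
    barToC N ι (letI := algebraAlong (heckeAlphaBar Qb N m);
        Algebra.norm (modularFunctionFieldBar N) g) =
      (letI := algebraAlong (heckeAlphaBar ℂ N m); Algebra.norm (FC N) (barToC (N * m) ι g)) := by
  refine NormDescent.norm_map_along (heckeAlphaBar Qb N m) (heckeAlphaBar ℂ N m) (barToC N ι)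
    (barToC (N * m) ι) (barToC_alpha N m ι) (finiteAlong_alpha N m Qb ι) ?_ ?_ g
  · letI := algebraAlong (heckeAlphaBar ℂ N m)
    haveI := isScalarTower_along (heckeAlphaBar ℂ N m)
    haveI : Module.Finite (FC N) (FC (N * m)) := finiteAlong_alpha N m ℂ (RingHom.id ℂ)
    exact NormDescent.span_eq_top_of_adjoin' (K' := ℂ) (barToC (N * m) ι)
      (adjoin_range_barToC (N * m) ι)
  · exact finrankAlong_alpha_eq N m ℂ Qb (RingHom.id ℂ) ι

/-- `Φ_N (φ_N (N_α F)) = N (Φ_{N m} (φ_{N m} F))`. -/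
theorem fieldEquiv_symm_barToC_norm (F : modularFunctionFieldBar (N * m)) :
    (fieldEquiv N).symm (barToC N ι (letI := algebraAlong (heckeAlphaBar Qb N m);
        Algebra.norm (modularFunctionFieldBar N) F)) =
      Algebra.norm (WHField (Gamma0 N)) ((fieldEquiv (N * m)).symm (barToC (N * m) ι F)) := by
  rw [barToC_norm N m ι, NormCosets.fieldEquiv_symm_norm]

/-- The norm along `α` of a nonzero element does not vanish. -/
theorem norm_alpha_ne_zero {F : modularFunctionFieldBar (N * m)} (hF : F ≠ 0) :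
    (letI := algebraAlong (heckeAlphaBar Qb N m);
      Algebra.norm (modularFunctionFieldBar N) F) ≠ 0 := by
  letI := algebraAlong (heckeAlphaBar Qb N m)
  haveI : Module.Finite (modularFunctionFieldBar N) (modularFunctionFieldBar (N * m)) :=
    finiteAlong_alpha N m Qb BarToC.iota
  haveI : Module.Free (modularFunctionFieldBar N) (modularFunctionFieldBar (N * m)) :=
    Module.Free.of_divisionRing _ _
  rw [Ne, Algebra.norm_eq_zero_iff]
  exact hF

end Descent

/-! ## The Kummer character of the norm -/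

section Main

variable {N m : ℕ} [NeZero N] [NeZero m] {n : ℕ} [NeZero n] (ι : Qb →+* ℂ)
variable {J : Type*} [Fintype J]

/-- The root datum of the norm along `α`. -/
theorem isRootDatum_norm (δ : J → SL(2, ℤ)) (hδ : ∀ j, δ j ∈ Gamma0 N)
    (hcos : ∀ g ∈ Gamma0 N, ∃! j, g * (δ j)⁻¹ ∈ Gamma0 (N * m))
    (F : modularFunctionFieldBar (N * m)) {a b : WH (Gamma0 (N * m))} {h : ℍ → ℂ}
    (D : IsRootDatum (Gamma0 (N * m)) n ((fieldEquiv (N * m)).symm (barToC (N * m) ι F)) a b h) :
    ∃ A B : WH (Gamma0 N),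
      IsRootDatum (Gamma0 N) n ((fieldEquiv N).symm (barToC N ι
        (letI := algebraAlong (heckeAlphaBar Qb N m);
          Algebra.norm (modularFunctionFieldBar N) F))) A B (fun z => ∏ j, h (δ j • z)) := by
  have hb0 : algebraMap (WH (Gamma0 (N * m))) (WHField (Gamma0 (N * m))) b ≠ 0 := fun h0 =>
    D.hb (algebraMap_WH_injective (by rw [h0, map_zero]))
  have hab : (fieldEquiv (N * m)).symm (barToC (N * m) ι F) =
      algebraMap (WH (Gamma0 (N * m))) (WHField (Gamma0 (N * m))) a /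
        algebraMap (WH (Gamma0 (N * m))) (WHField (Gamma0 (N * m))) b := by
    rw [eq_div_iff hb0]
    exact D.hu
  obtain ⟨A, B, hB, hA, hBz, hn⟩ := NormCosets.exists_norm_div N m δ hδ hcos a b D.hb
  have hB0 : algebraMap (WH (Gamma0 N)) (WHField (Gamma0 N)) B ≠ 0 := fun h0 =>
    hB (algebraMap_WH_injective (by rw [h0, map_zero]))
  refine ⟨A, B, hB, ?_, ?_, ?_⟩
  · rw [fieldEquiv_symm_barToC_norm N m ι, hab, hn, div_mul_cancel₀ _ hB0]
  · apply KummerHecke.mdiff_finset_prod
    intro j _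
    exact mdiff_comp_smul D.hh (δ j)
  · intro z
    rw [← Finset.prod_pow, hA z, hBz z, ← Finset.prod_pow, ← Finset.prod_mul_distrib]
    exact Finset.prod_congr rfl fun j _ => D.hpow _

/-- **(N4a), function level, every level.** The Kummer character of `N_α F` is the transfer of the
Kummer character of `F`: `κ(N_α F)(g) = ∑_j κ(F)(coc(g, j))`. -/
theorem kummerChar_norm_alpha (δ : J → SL(2, ℤ)) (hδ : ∀ j, δ j ∈ Gamma0 N)
    (hcos : ∀ g ∈ Gamma0 N, ∃! j, g * (δ j)⁻¹ ∈ Gamma0 (N * m))
    (perm : ↥(Gamma0 N) → J → J) (coc : ↥(Gamma0 N) → J → ↥(Gamma0 (N * m)))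
    (hrep : ∀ (g : ↥(Gamma0 N)) (j : J),
      δ j * (g : SL(2, ℤ)) = (coc g j : SL(2, ℤ)) * δ (perm g j))
    (F : modularFunctionFieldBar (N * m))
    (hu : NDiv (Gamma0 (N * m)) n ((fieldEquiv (N * m)).symm (barToC (N * m) ι F)))
    (hu' : NDiv (Gamma0 N) n ((fieldEquiv N).symm (barToC N ι
      (letI := algebraAlong (heckeAlphaBar Qb N m);
        Algebra.norm (modularFunctionFieldBar N) F))))
    (g : ↥(Gamma0 N)) :
    kummerChar hu' (Additive.ofMul g) = ∑ j, kummerChar hu (Additive.ofMul (coc g j)) := by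
  have D : IsRootDatum (Gamma0 (N * m)) n ((fieldEquiv (N * m)).symm (barToC (N * m) ι F))
      hu.rootA hu.rootB hu.rootH := hu.isRootDatum
  obtain ⟨A, B, D'⟩ := isRootDatum_norm ι δ hδ hcos F D
  have hm : ∀ (γ : ↥(Gamma0 (N * m))) (z : ℍ),
      hu.rootH ((γ : SL(2, ℤ)) • z) = kummerMult hu γ * hu.rootH z :=
    fun γ z => kummerMult_spec hu D γ z
  obtain ⟨z₀, hz₀⟩ := (D'.isInvRoot (NeZero.ne n) hu'.1).exists_ne_zero
  apply kummerChar_eq_of_spec hu' D' g hz₀
  have hperm : ∀ g, Function.Bijective (perm g) := fun g =>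
    Finite.injective_iff_bijective.mp (perm_injective δ hδ hcos perm coc hrep g)
  have e2 : ZMod.stdAddChar (∑ j, kummerChar hu (Additive.ofMul (coc g j))) =
      ∏ j, kummerMult hu (coc g j) := by
    rw [KummerHecke.addChar_map_sum]
    exact Finset.prod_congr rfl fun j _ => stdAddChar_kummerChar hu _
  rw [e2]
  exact prod_smul_smul δ perm coc hrep hperm hm g z₀

end Main

/-! ## The Kummer map of `α_* y` -/

section JLevel

variable {N m : ℕ} [NeZero N] [NeZero m] {J : Type*} [Fintype J]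

set_option maxHeartbeats 1000000 in
/-- **(N4a), `J`-level, every level** (`kappa`, `mapTors`): for a right transversal `δ_j` of
`Γ₀(N m)` in `Γ₀(N)` with bookkeeping `δ_j g = coc(g, j) δ_{perm(g, j)}`,
`κ^N_n (α_* y)(g) = ∑_j κ^{N m}_n (y)(coc(g, j))`. -/
theorem kappa_alphaPush (δ : J → SL(2, ℤ)) (hδ : ∀ j, δ j ∈ Gamma0 N)
    (hcos : ∀ g ∈ Gamma0 N, ∃! j, g * (δ j)⁻¹ ∈ Gamma0 (N * m))
    (perm : ↥(Gamma0 N) → J → J) (coc : ↥(Gamma0 N) → J → ↥(Gamma0 (N * m)))
    (hrep : ∀ (g : ↥(Gamma0 N)) (j : J),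
      δ j * (g : SL(2, ℤ)) = (coc g j : SL(2, ℤ)) * δ (perm g j))
    (n : ℕ) (hn : 0 < n) (y : Jtors (N * m) n) (g : ↥(Gamma0 N)) :
    kappa N n (mapTors (alphaPush N m) n y) (Additive.ofMul g) =
      ∑ j, kappa (N * m) n y (Additive.ofMul (coc g j)) := by
  haveI : NeZero n := ⟨hn.ne'⟩
  obtain ⟨D, f, hf, hyD, hD⟩ := exists_generator y.2
  obtain ⟨D', hαD, hD'⟩ := exists_alphaPush_divisor N m n D f hf hD
  obtain ⟨hu, hκ1⟩ := kappa_eq_kummerChar (N * m) y D f hf hyD hD
  have h2 : ((mapTors (alphaPush N m) n y : Jtors N n) : JZero N) = Pic0.mk D' := by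
    rw [coe_mapTors, hyD, hαD]
  obtain ⟨hu', hκ2⟩ := kappa_eq_kummerChar N (mapTors (alphaPush N m) n y) D' _
    (norm_alpha_ne_zero N m hf) h2 hD'
  rw [hκ1, hκ2]
  exact kummerChar_norm_alpha ι δ hδ hcos perm coc hrep f hu hu' g

end JLevel

end Fermat.Agent.S36.New.PushAlphaQ
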