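/-
S36, block [NEW at q ∣ N], function side, node NEW-PB (helper7): THE KUMMER MAP INTERTWINES THE
PUSH-FORWARD `β_* : J₀(N q) → J₀(N)` (`z ↦ q z`) WITH THE `U_q`-TYPE TRANSFER, FOR `q ∣ N`.

There is no Atkin–Lehner involution at `q` when `q² ∣ N q`, so `P4/NormBeta` (`N_β = N_α ∘ W_q`) does
not apply.  Instead we use the FRICKE involutions `w_M : z ↦ -1/(M z)` (helper16's
`S16/Bridge/AtkinLehnerWH`), which exist at every level:

  `w_N (w_{N q} z) = q z`,   hence   `scale_q = W_{N q} ∘ (level raising) ∘ W_N`   and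
  `N_β (G) = W_N (N_α (W_{N q} G))`.

With the right transversal `δ_t = [1, 0; -N t, 1]` (`t mod q`; a transversal of `Γ₀(N q)` in `Γ₀(N)`
because `q ∣ N`) one has `w_{N q} (δ_t (w_N z)) = (z + t)/q` EXACTLY, so the root of `N_β F` is
`H(z) = ∏_t h((z + t)/q)` and its multiplier is `∏_t m(coc(g, t))` for ANY bookkeeping
`[1, t; 0, q] g = coc(g, t) [1, perm(g, t); 0, q]` with `coc(g, t) ∈ Γ₀(N q)`.

* `wFld`, `wFld_wFld`, `scaleField_eq` : Fricke on the fields, `scale = W ∘ incl ∘ W`;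
* `fieldEquiv_symm_norm_beta` : `Φ_N (N_β G) = W_N (N (W_{N q} (Φ_{N q} G)))`;
* `barToC_norm_beta` : the norm along `β` commutes with `Q̄ → ℂ`, every level;
* `deltaQ`, `existsUnique_mul_inv_mem` : the transversal; `wH_deltaQ_wH` : `= heckeMatrix q t • z`;
* `kummerChar_norm_beta` : function level;  **`kappa_betaPush`** : `J`-level.
-/
import Mathlib
import Fermat.Agent.P4.KummerPushBetaPic
import Fermat.Agent.P4.NormBeta
import Fermat.Agent.S16.Bridge.AtkinLehnerWH

set_option autoImplicit false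
set_option linter.style.haveILetI false
set_option linter.unusedSectionVars false

open UpperHalfPlane MatrixGroups CongruenceSubgroup ModularForm
open Matrix.SpecialLinearGroup
open AlgebraicCurve ModularCurve
open scoped Manifold

noncomputable section

namespace Fermat.Agent.S36.New.PushBetaQ

open Fermat.Agent.M2 Fermat.Agent.N4F.Tors.Kummer Fermat.Agent.N4F.Tors
open Fermat.Agent.N4F.Res Fermat.Agent.N4F.E
open Fermat.Agent.N4F.Tors.Descent Fermat.Agent.N4F.Tors.BaseChange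
open Fermat.Agent.N4F.Tors.KummerFinal Fermat.Agent.N4F.Tors.HeckeDiv
open Fermat.Agent.N4F.A.LevelMaps Fermat.Agent.N4F.A.HeckeInputsFinal
open Fermat.Agent.S24 Fermat.Agent.S24.FieldIso
open Fermat.Agent.P3G.AuxPrime Fermat.Agent.P4.KummerPush Fermat.Agent.P4.KummerPushPic
open Fermat.Agent.P4.KummerExplicit Fermat.Agent.P4.TatePush Fermat.Agent.P4.Push
open Fermat.Agent.S16.Bridge

local notation "Qb" => AlgebraicClosure ℚ

/-! ## The Fricke involution on the fields of modular functions -/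

section Fricke

variable (M : ℕ) [NeZero M]

/-- The Fricke involution of `WHField Γ₀(M)` (fraction-field extension of `wWH M`). -/
def wFld : WHField (Gamma0 M) ≃ₐ[ℂ] WHField (Gamma0 M) :=
  IsFractionRing.algEquivOfAlgEquiv (wWH M)

theorem wFld_algebraMap (f : WH (Gamma0 M)) :
    wFld M (algebraMap (WH (Gamma0 M)) (WHField (Gamma0 M)) f) =
      algebraMap (WH (Gamma0 M)) (WHField (Gamma0 M)) (wWH M f) :=
  IsFractionRing.algEquivOfAlgEquiv_algebraMap (wWH M) f

theorem wFld_wFld (x : WHField (Gamma0 M)) : wFld M (wFld M x) = x := by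
  obtain ⟨a, b, -, rfl⟩ := IsFractionRing.div_surjective (A := WH (Gamma0 M)) x
  rw [map_div₀, map_div₀, wFld_algebraMap, wFld_algebraMap, wFld_algebraMap,
    wFld_algebraMap, wWH_wWH, wWH_wWH]

theorem wFld_symm_apply (x : WHField (Gamma0 M)) : (wFld M).symm x = wFld M x := by
  apply (wFld M).injective
  rw [AlgEquiv.apply_symm_apply, wFld_wFld]

end Fricke

/-! ## `scale_q = W_{N q} ∘ incl ∘ W_N` -/

section Scale

variable (N q : ℕ) [NeZero N] [NeZero q]

/-- `w_N (w_{N q} z) = q z`. -/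
theorem wH_wH_mul (z : ℍ) : wH N (wH (N * q) z) = JN.scaleH q z := by
  apply UpperHalfPlane.ext
  rw [coe_wH, coe_wH, JN.coe_scaleH]
  have hN : (N : ℂ) ≠ 0 := Nat.cast_ne_zero.mpr (NeZero.ne N)
  have hq : (q : ℂ) ≠ 0 := Nat.cast_ne_zero.mpr (NeZero.ne q)
  have hz : (z : ℂ) ≠ 0 := z.ne_zero
  push_cast
  field_simp

/-- `scale_q = W_{N q} ∘ (level raising) ∘ W_N` on `WH Γ₀(N)`. -/
theorem scaleWH_eq (f : WH (Gamma0 N)) :
    NormCosets.scaleWH N q f =
      wWH (N * q) (algebraMap (WH (Gamma0 N)) (WH (Gamma0 (N * q))) (wWH N f)) := by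
  apply Subtype.ext
  funext z
  show (f : ℍ → ℂ) (JN.scaleH q z) = (f : ℍ → ℂ) (wH N (wH (N * q) z))
  rw [wH_wH_mul]

/-- `scale_q = W_{N q} ∘ (level raising) ∘ W_N` on `WHField Γ₀(N)`. -/
theorem scaleField_eq (x : WHField (Gamma0 N)) :
    NormCosets.scaleField N q x =
      wFld (N * q) (algebraMap (WHField (Gamma0 N)) (WHField (Gamma0 (N * q))) (wFld N x)) := by
  have h : (NormCosets.scaleField N q).toRingHom =
      ((wFld (N * q)).toAlgHom.toRingHom.comp
        (algebraMap (WHField (Gamma0 N)) (WHField (Gamma0 (N * q))))).comp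
        (wFld N).toAlgHom.toRingHom := by
    apply IsLocalization.ringHom_ext (nonZeroDivisors (WH (Gamma0 N)))
    refine RingHom.ext fun f => ?_
    show NormCosets.scaleField N q (algebraMap (WH (Gamma0 N)) (WHField (Gamma0 N)) f) =
      wFld (N * q) (algebraMap (WHField (Gamma0 N)) (WHField (Gamma0 (N * q)))
        (wFld N (algebraMap (WH (Gamma0 N)) (WHField (Gamma0 N)) f)))
    rw [NormCosets.scaleField_algebraMap, wFld_algebraMap,
      ← IsScalarTower.algebraMap_apply (WH (Gamma0 N)) (WHField (Gamma0 N))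
        (WHField (Gamma0 (N * q))),
      IsScalarTower.algebraMap_apply (WH (Gamma0 N)) (WH (Gamma0 (N * q)))
        (WHField (Gamma0 (N * q))), wFld_algebraMap, scaleWH_eq]
  exact congrArg (fun φ : WHField (Gamma0 N) →+* WHField (Gamma0 (N * q)) => φ x) h

/-- `N_β = W_N ∘ N_α ∘ W_{N q}` on `WHField Γ₀(N q)` (`N_β` = norm for the scale embedding). -/
theorem norm_scaleField (x : WHField (Gamma0 (N * q))) :
    (letI := (NormCosets.scaleField N q).toRingHom.toAlgebra;
      Algebra.norm (WHField (Gamma0 N)) x) =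
      wFld N (Algebra.norm (WHField (Gamma0 N)) (wFld (N * q) x)) := by
  have h := @Algebra.norm_eq_of_equiv_equiv (WHField (Gamma0 N)) (WHField (Gamma0 (N * q)))
    (WHField (Gamma0 N)) (WHField (Gamma0 (N * q))) _ _ _ _
    (NormCosets.scaleField N q).toRingHom.toAlgebra _
    (wFld N).toRingEquiv (wFld (N * q)).toRingEquiv (by
      refine RingHom.ext fun y => ?_
      show algebraMap (WHField (Gamma0 N)) (WHField (Gamma0 (N * q))) (wFld N y) =
        wFld (N * q) (NormCosets.scaleField N q y)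
      rw [scaleField_eq, wFld_wFld]) x
  rw [h]
  show (wFld N).symm _ = _
  rw [wFld_symm_apply]
  rfl

/-- **The norm along `β_ℂ` through the Fricke involutions.** -/
theorem fieldEquiv_symm_norm_beta (G : FC (N * q)) :
    (fieldEquiv N).symm (letI := algebraAlong (heckeBetaBar ℂ N q); Algebra.norm (FC N) G) =
      wFld N (Algebra.norm (WHField (Gamma0 N))
        (wFld (N * q) ((fieldEquiv (N * q)).symm G))) := by
  rw [Fermat.Agent.P4.NormBeta.fieldEquiv_symm_norm_scale, norm_scaleField]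

end Scale

/-! ## Degrees along `β` and descent `Q̄ → ℂ`, every level -/

section Descent

variable (N q : ℕ) [NeZero N] [NeZero q]

/-- `ψ(N) · [L·F_{N q} : β(L·F_N)] = ψ(N q)` in the `Along` form. -/
theorem finrankAlong_beta_mul (L : Type) [Field L] [Algebra ℚ L] (ι' : L →+* ℂ) :
    dedekindPsi N * finrankAlong L (heckeBetaBar L N q) = dedekindPsi (N * q) := by
  letI := algebraAlong (heckeBetaBar L N q)
  show dedekindPsi N *
    Module.finrank (laurentBaseChange L (modularFunctionFieldFull N))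
      (laurentBaseChange L (modularFunctionFieldFull (N * q))) = _
  rw [DegreeLevelRaise.finrank_eq_finrank_fieldRange (heckeBetaBar L N q) rfl]
  exact DegreeLevelRaise.psi_mul_finrank_heckeBetaBar L N q ι'

/-- The degree along `β` does not depend on the field of constants. -/
theorem finrankAlong_beta_eq (L L' : Type) [Field L] [Algebra ℚ L] [Field L'] [Algebra ℚ L']
    (ι : L →+* ℂ) (ι' : L' →+* ℂ) :
    finrankAlong L (heckeBetaBar L N q) = finrankAlong L' (heckeBetaBar L' N q) := by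
  have h1 := finrankAlong_beta_mul N q L ι
  have h2 := finrankAlong_beta_mul N q L' ι'
  exact Nat.eq_of_mul_eq_mul_left (Fermat.Agent.N4.ModPolyShape.dedekindPsi_pos N)
    (h1.trans h2.symm)

theorem finrankAlong_beta_pos (L : Type) [Field L] [Algebra ℚ L] (ι' : L →+* ℂ) :
    0 < finrankAlong L (heckeBetaBar L N q) := by
  have h := finrankAlong_beta_mul N q L ι'
  rcases Nat.eq_zero_or_pos (finrankAlong L (heckeBetaBar L N q)) with h0 | h0
  · rw [h0, mul_zero] at h
    exact absurd h.symm (Fermat.Agent.N4.ModPolyShape.dedekindPsi_pos (N * q)).ne'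
  · exact h0

theorem finiteAlong_beta (L : Type) [Field L] [Algebra ℚ L] (ι' : L →+* ℂ) :
    FiniteAlong L (heckeBetaBar L N q) := by
  letI := algebraAlong (heckeBetaBar L N q)
  show Module.Finite (laurentBaseChange L (modularFunctionFieldFull N))
    (laurentBaseChange L (modularFunctionFieldFull (N * q)))
  apply Module.finite_of_finrank_pos
  exact finrankAlong_beta_pos N q L ι'

variable (ι₀ : Qb →+* ℂ)

lemma barToC_beta (x : modularFunctionFieldBar N) :
    barToC (N * q) ι₀ (heckeBetaBar Qb N q x) = heckeBetaBar ℂ N q (barToC N ι₀ x) := by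
  apply Subtype.ext
  rw [coe_barToC, coe_heckeBetaBar, coe_heckeBetaBar, coe_barToC, coeffMap_qExpand]

/-- **The norm along `β` commutes with `Q̄ → ℂ`**, every level. -/
theorem barToC_norm_beta (g : modularFunctionFieldBar (N * q)) :
    barToC N ι₀ (letI := algebraAlong (heckeBetaBar Qb N q);
        Algebra.norm (modularFunctionFieldBar N) g) =
      (letI := algebraAlong (heckeBetaBar ℂ N q); Algebra.norm (FC N) (barToC (N * q) ι₀ g)) := by
  refine NormDescent.norm_map_along (heckeBetaBar Qb N q) (heckeBetaBar ℂ N q) (barToC N ι₀)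
    (barToC (N * q) ι₀) (barToC_beta N q ι₀) (finiteAlong_beta N q Qb ι₀) ?_ ?_ g
  · letI := algebraAlong (heckeBetaBar ℂ N q)
    haveI := isScalarTower_along (heckeBetaBar ℂ N q)
    haveI : Module.Finite (FC N) (FC (N * q)) := finiteAlong_beta N q ℂ (RingHom.id ℂ)
    exact NormDescent.span_eq_top_of_adjoin' (K' := ℂ) (barToC (N * q) ι₀)
      (adjoin_range_barToC (N * q) ι₀)
  · exact finrankAlong_beta_eq N q ℂ Qb (RingHom.id ℂ) ι₀

/-- **`Φ_N (φ_N (N_β F)) = W_N (N (W_{N q} (Φ_{N q} (φ_{N q} F))))`.** -/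
theorem fieldEquiv_symm_barToC_norm_beta (F : modularFunctionFieldBar (N * q)) :
    (fieldEquiv N).symm (barToC N ι₀ (letI := algebraAlong (heckeBetaBar Qb N q);
        Algebra.norm (modularFunctionFieldBar N) F)) =
      wFld N (Algebra.norm (WHField (Gamma0 N))
        (wFld (N * q) ((fieldEquiv (N * q)).symm (barToC (N * q) ι₀ F)))) := by
  rw [barToC_norm_beta N q ι₀, fieldEquiv_symm_norm_beta]

end Descent

/-! ## The transversal `δ_t = [1, 0; -N t, 1]` of `Γ₀(N q)` in `Γ₀(N)`, `q ∣ N` -/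

section Transversal

variable (N q : ℕ)

/-- `δ_t = [1, 0; -N t, 1]`. -/
def deltaQ (t : ℤ) : SL(2, ℤ) :=
  ⟨!![1, 0; -((N : ℤ) * t), 1], by rw [Matrix.det_fin_two_of]; ring⟩

@[simp] lemma deltaQ_zero_zero (t : ℤ) : deltaQ N t 0 0 = 1 := rfl
@[simp] lemma deltaQ_zero_one (t : ℤ) : deltaQ N t 0 1 = 0 := rfl
@[simp] lemma deltaQ_one_zero (t : ℤ) : deltaQ N t 1 0 = -((N : ℤ) * t) := rfl
@[simp] lemma deltaQ_one_one (t : ℤ) : deltaQ N t 1 1 = 1 := rfl

theorem deltaQ_mem (t : ℤ) : deltaQ N t ∈ Gamma0 N := by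
  rw [Gamma0_mem, deltaQ_one_zero]
  simp

theorem deltaQ_inv (t : ℤ) : (deltaQ N t)⁻¹ = deltaQ N (-t) := by
  apply Subtype.ext
  rw [Matrix.SpecialLinearGroup.coe_inv]
  ext i j
  fin_cases i <;> fin_cases j <;> simp [deltaQ, Matrix.adjugate_fin_two]

/-- The lower left entry of `g δ_t⁻¹`. -/
theorem mul_deltaQ_inv_one_zero (g : SL(2, ℤ)) (t : ℤ) :
    (g * (deltaQ N t)⁻¹) 1 0 = g 1 0 + g 1 1 * ((N : ℤ) * t) := by
  rw [deltaQ_inv, Matrix.SpecialLinearGroup.coe_mul, Matrix.mul_apply, Fin.sum_univ_two,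
    deltaQ_zero_zero, deltaQ_one_zero]
  ring

variable {N q} [NeZero N] [NeZero q]

/-- **`δ_t`, `t mod q`, is a right transversal of `Γ₀(N q)` in `Γ₀(N)`** when `q ∣ N`. -/
theorem existsUnique_mul_inv_mem (hqN : q ∣ N) :
    ∀ g ∈ Gamma0 N, ∃! t : ZMod q, g * (deltaQ N ((t.val : ℕ) : ℤ))⁻¹ ∈ Gamma0 (N * q) := by
  intro g hg
  have hN0 : (N : ℤ) ≠ 0 := Int.natCast_ne_zero.mpr (NeZero.ne N)
  obtain ⟨c', hc'⟩ : (N : ℤ) ∣ g 1 0 :=
    (ZMod.intCast_zmod_eq_zero_iff_dvd _ _).mp (Gamma0_mem.mp hg)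
  obtain ⟨N', hN'⟩ := hqN
  -- `a d = 1` in `ZMod q`
  have had : ((g 0 0 : ℤ) : ZMod q) * ((g 1 1 : ℤ) : ZMod q) = 1 := by
    have hdet := g.det_coe
    rw [Matrix.det_fin_two] at hdet
    have h1 : g 0 0 * g 1 1 = 1 + (q : ℤ) * ((N' : ℤ) * c' * g 0 1) := by
      rw [hc', hN'] at hdet
      push_cast at hdet
      linear_combination hdet
    have h2 := congrArg (Int.cast : ℤ → ZMod q) h1
    push_cast at h2
    rw [h2]
    simp
  -- the criterion
  have key : ∀ t : ZMod q, g * (deltaQ N ((t.val : ℕ) : ℤ))⁻¹ ∈ Gamma0 (N * q) ↔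
      ((c' : ℤ) : ZMod q) + ((g 1 1 : ℤ) : ZMod q) * t = 0 := by
    intro t
    rw [Gamma0_mem, ZMod.intCast_zmod_eq_zero_iff_dvd, mul_deltaQ_inv_one_zero, hc']
    have e : (N : ℤ) * c' + g 1 1 * ((N : ℤ) * ((t.val : ℕ) : ℤ)) =
        (N : ℤ) * (c' + g 1 1 * ((t.val : ℕ) : ℤ)) := by ring
    rw [e]
    push_cast
    rw [mul_dvd_mul_iff_left hN0, ← ZMod.intCast_zmod_eq_zero_iff_dvd]
    push_cast
    rw [ZMod.natCast_zmod_val]
  refine ⟨-(((g 0 0 : ℤ) : ZMod q) * ((c' : ℤ) : ZMod q)), (key _).2 ?_, fun t ht => ?_⟩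
  · have : ((c' : ℤ) : ZMod q) + ((g 1 1 : ℤ) : ZMod q) *
        -(((g 0 0 : ℤ) : ZMod q) * ((c' : ℤ) : ZMod q)) =
        ((c' : ℤ) : ZMod q) * (1 - ((g 0 0 : ℤ) : ZMod q) * ((g 1 1 : ℤ) : ZMod q)) := by ring
    rw [this, had, sub_self, mul_zero]
  · have h1 := (key t).1 ht
    have h2 : t = ((g 0 0 : ℤ) : ZMod q) * ((g 1 1 : ℤ) : ZMod q) * t := by rw [had, one_mul]
    rw [h2]
    linear_combination ((g 0 0 : ℤ) : ZMod q) * h1

/-- **`w_{N q} (δ_t (w_N z)) = (z + t)/q`.** -/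
theorem wH_deltaQ_wH (N q : ℕ) [NeZero N] [NeZero q] (t : ℕ) (z : ℍ) :
    wH (N * q) (deltaQ N (t : ℤ) • wH N z) = heckeMatrix q t • z := by
  apply UpperHalfPlane.ext
  rw [coe_wH, coe_specialLinearGroup_apply, coe_wH, coe_heckeMatrix_smul (NeZero.ne q)]
  have hN : (N : ℂ) ≠ 0 := Nat.cast_ne_zero.mpr (NeZero.ne N)
  have hq : (q : ℂ) ≠ 0 := Nat.cast_ne_zero.mpr (NeZero.ne q)
  have hz : (z : ℂ) ≠ 0 := z.ne_zero
  have hzt : (z : ℂ) + (t : ℂ) ≠ 0 := by
    intro h
    have h1 := congrArg Complex.im h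
    simp at h1
    exact z.im_pos.ne' h1
  simp only [deltaQ_zero_zero, deltaQ_zero_one, deltaQ_one_zero, deltaQ_one_one, algebraMap_int_eq,
    eq_intCast, Int.cast_one, Int.cast_zero, Int.cast_neg, Int.cast_mul, Int.cast_natCast]
  push_cast
  have hd : -((N : ℂ) * (t : ℂ)) * (-1 / ((N : ℂ) * (z : ℂ))) + 1 = ((z : ℂ) + t) / z := by
    field_simp
    ring
  rw [one_mul, add_zero, hd]
  field_simp

end Transversal

/-! ## Root data under the Fricke involution -/

section RootDatum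

variable (M : ℕ) [NeZero M] {n : ℕ}

/-- The Fricke transform of a root datum. -/
theorem isRootDatum_w {u : WHField (Gamma0 M)} {a b : WH (Gamma0 M)} {h : ℍ → ℂ}
    (D : IsRootDatum (Gamma0 M) n u a b h) :
    IsRootDatum (Gamma0 M) n (wFld M u) (wWH M a) (wWH M b) (h ∘ wH M) := by
  refine ⟨?_, ?_, ?_, ?_⟩
  · intro h0
    exact D.hb ((wWH M).injective (h0.trans (map_zero _).symm))
  · rw [← wFld_algebraMap, ← wFld_algebraMap, ← map_mul, D.hu]
  · exact mdiff_comp_wH M D.hh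
  · intro z
    exact D.hpow (wH M z)

end RootDatum

/-! ## The Kummer character of the norm along `β` -/

section Main

variable {N q : ℕ} [NeZero N] [NeZero q] {n : ℕ} [NeZero n] (ι₀ : Qb →+* ℂ)

/-- The root datum of the norm along `β`, `q ∣ N`: the root is `z ↦ ∏_t h((z + t)/q)`. -/
theorem isRootDatum_norm_beta (hqN : q ∣ N) (F : modularFunctionFieldBar (N * q))
    {a b : WH (Gamma0 (N * q))} {h : ℍ → ℂ}
    (D : IsRootDatum (Gamma0 (N * q)) n ((fieldEquiv (N * q)).symm (barToC (N * q) ι₀ F)) a b h) :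
    ∃ A B : WH (Gamma0 N),
      IsRootDatum (Gamma0 N) n ((fieldEquiv N).symm (barToC N ι₀
        (letI := algebraAlong (heckeBetaBar Qb N q);
          Algebra.norm (modularFunctionFieldBar N) F))) A B
        (fun z => ∏ t : ZMod q, h (heckeMatrix q t.val • z)) := by
  have D1 := isRootDatum_w (N * q) D
  set δ : ZMod q → SL(2, ℤ) := fun t => deltaQ N ((t.val : ℕ) : ℤ) with hδdef
  have hδ : ∀ t, δ t ∈ Gamma0 N := fun t => deltaQ_mem N _
  have hcos : ∀ g ∈ Gamma0 N, ∃! t, g * (δ t)⁻¹ ∈ Gamma0 (N * q) :=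
    existsUnique_mul_inv_mem hqN
  have hb0 : algebraMap (WH (Gamma0 (N * q))) (WHField (Gamma0 (N * q))) (wWH (N * q) b) ≠ 0 :=
    fun h0 => D1.hb (algebraMap_WH_injective (by rw [h0, map_zero]))
  have hab : wFld (N * q) ((fieldEquiv (N * q)).symm (barToC (N * q) ι₀ F)) =
      algebraMap (WH (Gamma0 (N * q))) (WHField (Gamma0 (N * q))) (wWH (N * q) a) /
        algebraMap (WH (Gamma0 (N * q))) (WHField (Gamma0 (N * q))) (wWH (N * q) b) := by
    rw [eq_div_iff hb0]
    exact D1.hu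
  obtain ⟨A₁, B₁, hB₁, hA₁, hB₁z, hn⟩ :=
    NormCosets.exists_norm_div N q δ hδ hcos (wWH (N * q) a) (wWH (N * q) b) D1.hb
  have hB0 : algebraMap (WH (Gamma0 N)) (WHField (Gamma0 N)) B₁ ≠ 0 := fun h0 =>
    hB₁ (algebraMap_WH_injective (by rw [h0, map_zero]))
  -- the pointwise formulas
  have hr : ∀ (t : ZMod q) (z : ℍ),
      wH (N * q) (δ t • wH N z) = heckeMatrix q t.val • z := fun t z =>
    wH_deltaQ_wH N q t.val z
  have hAz : ∀ z, (wWH N A₁ : ℍ → ℂ) z = ∏ t : ZMod q, (a : ℍ → ℂ) (heckeMatrix q t.val • z) := by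
    intro z
    rw [wWH_apply, hA₁]
    refine Finset.prod_congr rfl fun t _ => ?_
    rw [wWH_apply, hr]
  have hBz : ∀ z, (wWH N B₁ : ℍ → ℂ) z = ∏ t : ZMod q, (b : ℍ → ℂ) (heckeMatrix q t.val • z) := by
    intro z
    rw [wWH_apply, hB₁z]
    refine Finset.prod_congr rfl fun t _ => ?_
    rw [wWH_apply, hr]
  refine ⟨wWH N A₁, wWH N B₁, ?_, ?_, ?_, ?_⟩
  · intro h0
    exact hB₁ ((wWH N).injective (h0.trans (map_zero _).symm))
  · rw [fieldEquiv_symm_barToC_norm_beta N q ι₀, hab, hn, ← wFld_algebraMap, ← wFld_algebraMap,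
      ← map_mul, div_mul_cancel₀ _ hB0]
  · have e : (fun z => ∏ t : ZMod q, h (heckeMatrix q t.val • z)) =
        fun z => ∏ t : ZMod q, ((fun w => (h ∘ wH (N * q)) (δ t • w)) ∘ wH N) z := by
      funext z
      refine Finset.prod_congr rfl fun t _ => ?_
      simp only [Function.comp_apply]
      rw [hr]
    rw [e]
    apply KummerHecke.mdiff_finset_prod
    intro t _
    exact mdiff_comp_wH N (mdiff_comp_smul D1.hh (δ t))
  · intro z
    rw [← Finset.prod_pow, hAz z, hBz z, ← Finset.prod_pow, ← Finset.prod_mul_distrib]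
    exact Finset.prod_congr rfl fun t _ => D.hpow _

/-- The functional equation of `z ↦ ∏_t h((z + t)/q)` for a function `h` with multiplier system
`m` on `Γ₀(N q)`, given a `U_q`-bookkeeping. -/
theorem prod_heckeMatrix_smul (perm : ↥(Gamma0 N) → ZMod q → ZMod q)
    (coc : ↥(Gamma0 N) → ZMod q → ↥(Gamma0 (N * q)))
    (hperm : ∀ g, Function.Bijective (perm g))
    (hrep : ∀ (g : ↥(Gamma0 N)) (t : ZMod q),
      heckeMatrix q t.val * mapGL ℝ (g : SL(2, ℤ)) =
        mapGL ℝ (coc g t : SL(2, ℤ)) * heckeMatrix q (perm g t).val)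
    {h : ℍ → ℂ} {m : ↥(Gamma0 (N * q)) → ℂ}
    (hm : ∀ (γ : ↥(Gamma0 (N * q))) (z : ℍ), h ((γ : SL(2, ℤ)) • z) = m γ * h z)
    (g : ↥(Gamma0 N)) (z : ℍ) :
    ∏ t : ZMod q, h (heckeMatrix q t.val • ((g : SL(2, ℤ)) • z)) =
      (∏ t : ZMod q, m (coc g t)) * ∏ t : ZMod q, h (heckeMatrix q t.val • z) := by
  have h1 : ∀ t : ZMod q, h (heckeMatrix q t.val • ((g : SL(2, ℤ)) • z)) =
      m (coc g t) * h (heckeMatrix q (perm g t).val • z) := by
    intro t
    have e : heckeMatrix q t.val • ((g : SL(2, ℤ)) • z) =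
        (coc g t : SL(2, ℤ)) • (heckeMatrix q (perm g t).val • z) := by
      rw [ModularGroup.sl_moeb, ModularGroup.sl_moeb, ← mul_smul, ← mul_smul]
      exact congrArg (· • z) (hrep g t)
    rw [e, hm]
  rw [Finset.prod_congr rfl (fun t _ => h1 t), Finset.prod_mul_distrib]
  congr 1
  exact Equiv.prod_comp (Equiv.ofBijective (perm g) (hperm g))
    (fun t => h (heckeMatrix q t.val • z))

/-- **(N4b) at `q ∣ N`, function level.** The Kummer character of `N_β F` is the `U_q`-transfer of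
the Kummer character of `F`: `κ(N_β F)(g) = ∑_t κ(F)(coc(g, t))` for every bookkeeping
`[1, t; 0, q] g = coc(g, t) [1, perm(g, t); 0, q]`, `coc(g, t) ∈ Γ₀(N q)`. -/
theorem kummerChar_norm_beta (hqN : q ∣ N) (perm : ↥(Gamma0 N) → ZMod q → ZMod q)
    (coc : ↥(Gamma0 N) → ZMod q → ↥(Gamma0 (N * q)))
    (hperm : ∀ g, Function.Bijective (perm g))
    (hrep : ∀ (g : ↥(Gamma0 N)) (t : ZMod q),
      heckeMatrix q t.val * mapGL ℝ (g : SL(2, ℤ)) =
        mapGL ℝ (coc g t : SL(2, ℤ)) * heckeMatrix q (perm g t).val)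
    (F : modularFunctionFieldBar (N * q))
    (hu : NDiv (Gamma0 (N * q)) n ((fieldEquiv (N * q)).symm (barToC (N * q) ι₀ F)))
    (hu' : NDiv (Gamma0 N) n ((fieldEquiv N).symm (barToC N ι₀
      (letI := algebraAlong (heckeBetaBar Qb N q);
        Algebra.norm (modularFunctionFieldBar N) F))))
    (g : ↥(Gamma0 N)) :
    kummerChar hu' (Additive.ofMul g) = ∑ t : ZMod q, kummerChar hu (Additive.ofMul (coc g t)) := by
  have D : IsRootDatum (Gamma0 (N * q)) n ((fieldEquiv (N * q)).symm (barToC (N * q) ι₀ F))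
      hu.rootA hu.rootB hu.rootH := hu.isRootDatum
  obtain ⟨A, B, D'⟩ := isRootDatum_norm_beta ι₀ hqN F D
  have hm : ∀ (γ : ↥(Gamma0 (N * q))) (z : ℍ),
      hu.rootH ((γ : SL(2, ℤ)) • z) = kummerMult hu γ * hu.rootH z :=
    fun γ z => kummerMult_spec hu D γ z
  obtain ⟨z₀, hz₀⟩ := (D'.isInvRoot (NeZero.ne n) hu'.1).exists_ne_zero
  apply kummerChar_eq_of_spec hu' D' g hz₀
  have e2 : ZMod.stdAddChar (∑ t : ZMod q, kummerChar hu (Additive.ofMul (coc g t))) =
      ∏ t : ZMod q, kummerMult hu (coc g t) := by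
    rw [KummerHecke.addChar_map_sum]
    exact Finset.prod_congr rfl fun t _ => stdAddChar_kummerChar hu _
  rw [e2]
  exact prod_heckeMatrix_smul perm coc hperm hrep hm g z₀

end Main

/-! ## The Kummer map of `β_* y` -/

section JLevel

variable {N q : ℕ} [NeZero N] [NeZero q]

/-- **(N4b) at `q ∣ N`, `J`-level** (`kappa`, `mapTors`): for every `U_q`-bookkeeping
`[1, t; 0, q] g = coc(g, t) [1, perm(g, t); 0, q]` with `coc(g, t) ∈ Γ₀(N q)`,
`κ^N_n (β_* y)(g) = ∑_t κ^{N q}_n (y)(coc(g, t))`. -/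
theorem kappa_betaPush (hqN : q ∣ N) (perm : ↥(Gamma0 N) → ZMod q → ZMod q)
    (coc : ↥(Gamma0 N) → ZMod q → ↥(Gamma0 (N * q)))
    (hperm : ∀ g, Function.Bijective (perm g))
    (hrep : ∀ (g : ↥(Gamma0 N)) (t : ZMod q),
      heckeMatrix q t.val * mapGL ℝ (g : SL(2, ℤ)) =
        mapGL ℝ (coc g t : SL(2, ℤ)) * heckeMatrix q (perm g t).val)
    (n : ℕ) (hn : 0 < n) (y : Jtors (N * q) n) (g : ↥(Gamma0 N)) :
    kappa N n (mapTors (betaPush N q) n y) (Additive.ofMul g) =
      ∑ t : ZMod q, kappa (N * q) n y (Additive.ofMul (coc g t)) :=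
  Fermat.Agent.P4.KummerPushBetaPic.kappa_betaPush coc
    (fun _ _ F hu hu' g => kummerChar_norm_beta ι hqN perm coc hperm hrep F hu hu' g) n hn y g

end JLevel

end Fermat.Agent.S36.New.PushBetaQ
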