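/-
S36, block [NEW at q ∣ N], Hom-side, file 0: TWISTED TRANSVERSALS AND THEIR CORESTRICTION.

A *twisted transversal* of `Γ₀(M)` in `Γ₀(N)` is a coset system (in the sense of
`P3LR/A/Transfer2.CosetSys₂`) whose representatives are `b⁻¹ * τ i`, `τ i ∈ Γ₀(N)`, `b ∈ GL₂(ℝ)` a
fixed "twist" with `b Γ₀(M) b⁻¹ ⊆ Γ₀(N)`, consisting of pairwise distinct cosets, with `τ base = 1`.
(`b = 1`: the corestriction `α_*` along `Γ₀(M) ⊆ Γ₀(N)`; `b = diag(q, 1)`, `M = N q`: the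
corestriction `β_*` along `z ↦ q z`.)

* `sys`, `coresHom`, `coresAdd`, `coresAdd_apply`, `coresAdd_comp`, `coresAdd_mem_parHomAdd`;
* `coresHom_heckeHom`, `coresAdd_heckeAdd` : the corestriction commutes with `T_ℓ` (`ℓ ∤ N`,
  `ℓ ∤ M`) as soon as (B) `heckeRep ℓ y * b⁻¹ ∈ b⁻¹ Γ₀(N) heckeRep ℓ y'` and (D) an element
  `b⁻¹ g b` (`g ∈ Γ₀(N)`) with `heckeRep ℓ y * (b⁻¹ g b) ∈ Γ₀(M) heckeRep ℓ y'` lies in `Γ₀(M)`.
-/
import Mathlib
import Fermat.Agent.N4F.Tors.HeckeHom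
import Fermat.Agent.P3LR.A.Transfer2
import Fermat.Agent.P3LR.A.IntMat
import Fermat.Agent.P4.TransferComm

set_option autoImplicit false
set_option linter.unusedSectionVars false

open scoped MatrixGroups

noncomputable section

namespace Fermat.Agent.S36.New.CoresGen

open Matrix.SpecialLinearGroup CongruenceSubgroup ModularForm
open P2MW.S_ModularForm_heckeT_slash_eq_self_of_mem_Gamma0.ModularForm.HeckeSlashInvariance
open Fermat.Agent.N4F.Tors.HeckeHom Fermat.Agent.P3LR.A.Transfer2 Fermat.Agent.P3LR.A.IntMat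
open Fermat.Agent.P4.TransferComm
open scoped OnePoint

/-- A twisted transversal of `Γ₀(M)` in `Γ₀(N)`: representatives `b⁻¹ * τ i`. -/
structure TwTrans (N M : ℕ) (ι : Type*) where
  /-- the twist -/
  b : GL (Fin 2) ℝ
  /-- the transversal -/
  τ : ι → ↥(Gamma0 N)
  /-- the action on the index set -/
  perm : ↥(Gamma0 N) → ι → ι
  /-- the cocycle -/
  coc : ↥(Gamma0 N) → ι → ↥(Gamma0 M)
  rel : ∀ (g : ↥(Gamma0 N)) (i : ι),
    b⁻¹ * jGL N (τ i) * jGL N g = jGL M (coc g i) * (b⁻¹ * jGL N (τ (perm g i)))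
  inj : ∀ (i i' : ι) (d : ↥(Gamma0 M)),
    b⁻¹ * jGL N (τ i) = jGL M d * (b⁻¹ * jGL N (τ i')) → i = i'
  conjIn : ∀ e : ↥(Gamma0 M), ∃ d : ↥(Gamma0 N), b * jGL M e * b⁻¹ = jGL N d
  /-- the base index -/
  base : ι
  τ_base : τ base = 1

namespace TwTrans

variable {N M : ℕ} {ι : Type*} (W : TwTrans N M ι)

/-- the representatives -/
def rep (i : ι) : GL (Fin 2) ℝ := W.b⁻¹ * jGL N (W.τ i)

theorem rep_base : W.rep W.base = W.b⁻¹ := by
  rw [rep, W.τ_base, map_one, mul_one]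

/-- **The coset system of a twisted transversal.** -/
def sys : CosetSys₂ (jGL N) (jGL M) ι :=
  CosetSys₂.ofInj (jGL_injective M) W.rep W.perm W.coc W.rel W.inj

@[simp] theorem sys_rep (i : ι) : W.sys.rep i = W.b⁻¹ * jGL N (W.τ i) := rfl

@[simp] theorem sys_perm (g : ↥(Gamma0 N)) (i : ι) : W.sys.perm g i = W.perm g i := rfl

@[simp] theorem sys_coc (g : ↥(Gamma0 N)) (i : ι) : W.sys.coc g i = W.coc g i := rfl

theorem sys_isInj : W.sys.IsInj := CosetSys₂.isInj_ofInj _ _ _ _ _ _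

/-- every element of `b⁻¹ Γ₀(N)` lies in a coset `Γ₀(M) b⁻¹ τ i` -/
theorem exists_eq_mul (c : ↥(Gamma0 N)) :
    ∃ (d : ↥(Gamma0 M)) (i : ι), W.b⁻¹ * jGL N c = jGL M d * (W.b⁻¹ * jGL N (W.τ i)) := by
  have h := W.rel c W.base
  rw [W.τ_base, map_one, mul_one] at h
  exact ⟨_, _, h⟩

variable [Fintype ι]

/-! ### The corestriction -/

/-- **The corestriction** `Hom(Γ₀(M), A) → Hom(Γ₀(N), A)` of a twisted transversal,
multiplicative form. -/
def coresHom {A : Type*} [CommGroup A] : (↥(Gamma0 M) →* A) →* (↥(Gamma0 N) →* A) :=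
  W.sys.transfer

theorem coresHom_apply {A : Type*} [CommGroup A] (ψ : ↥(Gamma0 M) →* A) (g : ↥(Gamma0 N)) :
    W.coresHom ψ g = ∏ i, ψ (W.coc g i) := rfl

theorem coresHom_comp {A A' : Type*} [CommGroup A] [CommGroup A'] (f : A →* A')
    (ψ : ↥(Gamma0 M) →* A) : W.coresHom (f.comp ψ) = f.comp (W.coresHom ψ) :=
  W.sys.transfer_comp_hom f ψ

theorem coresHom_mem_parHom {A : Type*} [CommGroup A] {ψ : ↥(Gamma0 M) →* A}
    (hψ : ψ ∈ parHom M A) : W.coresHom ψ ∈ parHom N A := by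
  intro g hg
  refine W.sys.transfer_eq_one_of_mem (parEllSet N) (parEllSet M) ?_ ψ
    (fun d hd => hψ d hd) hg
  intro g hg n a d h
  exact isParEll_of_conj_pow hg n a h

/-- **The corestriction, additive form.** -/
def coresAdd {A : Type*} [AddCommGroup A] :
    (Additive ↥(Gamma0 M) →+ A) →+ (Additive ↥(Gamma0 N) →+ A) where
  toFun φ := MonoidHom.toAdditiveLeft (W.coresHom (AddMonoidHom.toMultiplicativeRight φ))
  map_zero' := by
    have h : AddMonoidHom.toMultiplicativeRight (0 : Additive ↥(Gamma0 M) →+ A) =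
        (1 : ↥(Gamma0 M) →* Multiplicative A) := rfl
    rw [h, map_one]
    rfl
  map_add' φ ψ := by
    have h : AddMonoidHom.toMultiplicativeRight (φ + ψ) =
        AddMonoidHom.toMultiplicativeRight φ * AddMonoidHom.toMultiplicativeRight ψ := rfl
    rw [h, map_mul]
    rfl

theorem coresAdd_apply {A : Type*} [AddCommGroup A] (φ : Additive ↥(Gamma0 M) →+ A)
    (g : ↥(Gamma0 N)) :
    W.coresAdd φ (Additive.ofMul g) = ∑ i, φ (Additive.ofMul (W.coc g i)) := by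
  show Multiplicative.toAdd (W.coresHom (AddMonoidHom.toMultiplicativeRight φ) g) = _
  rw [coresHom_apply, toAdd_prod]
  rfl

theorem coresAdd_comp {A B : Type*} [AddCommGroup A] [AddCommGroup B] (f : A →+ B)
    (φ : Additive ↥(Gamma0 M) →+ A) : W.coresAdd (f.comp φ) = f.comp (W.coresAdd φ) := by
  refine AddMonoidHom.ext fun g => ?_
  obtain ⟨g, rfl⟩ := Additive.ofMul.surjective g
  rw [coresAdd_apply, AddMonoidHom.comp_apply, coresAdd_apply, map_sum]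
  rfl

theorem coresAdd_mem_parHomAdd {A : Type*} [AddCommGroup A]
    {φ : Additive ↥(Gamma0 M) →+ A} (hφ : φ ∈ parHomAdd M A) :
    W.coresAdd φ ∈ parHomAdd N A := by
  rw [← toMultiplicativeRight_mem_parHom] at hφ ⊢
  exact W.coresHom_mem_parHom hφ

/-! ### Commutation with the Hecke operators -/

section Hecke

variable {ℓ : ℕ} [Fact ℓ.Prime] (hℓN : ¬ ℓ ∣ N) (hℓM : ¬ ℓ ∣ M)
  (hB : ∀ y : OnePoint (ZMod ℓ), ∃ (u : ↥(Gamma0 N)) (y' : OnePoint (ZMod ℓ)),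
    heckeRep ℓ y * W.b⁻¹ = W.b⁻¹ * jGL N u * heckeRep ℓ y')
  (hD : ∀ (y y' : OnePoint (ZMod ℓ)) (e : ↥(Gamma0 M)) (g : ↥(Gamma0 N)),
    heckeRep ℓ y * (W.b⁻¹ * jGL N g * W.b) = jGL M e * heckeRep ℓ y' →
      ∃ d : ↥(Gamma0 M), W.b⁻¹ * jGL N g * W.b = jGL M d)

include hB hD in
/-- **(R2)** `cores ∘ T_ℓ^M = T_ℓ^N ∘ cores` for a twisted transversal. -/
theorem coresHom_heckeHom {A : Type*} [CommGroup A] (ψ : ↥(Gamma0 M) →* A) :
    W.coresHom (heckeHom M ℓ hℓM ψ) = heckeHom N ℓ hℓN (W.coresHom ψ) := by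
  set S_T := CosetSys₂.ofCosetSys (jGL_injective N) (heckeSys N ℓ hℓN) with hST
  set S_T' := CosetSys₂.ofCosetSys (jGL_injective M) (heckeSys M ℓ hℓM) with hST'
  have hrepT : ∀ y, S_T.rep y = heckeRep ℓ y := fun _ => rfl
  have hrepT' : ∀ y, S_T'.rep y = heckeRep ℓ y := fun _ => rfl
  have key := transfer_comm W.sys S_T S_T' (jGL_injective M) ?_ ?_ ?_ ψ
  · exact key
  · -- the cosets `Γ₀(M) b⁻¹ τ_x β_y` are pairwise distinct
    refine isInj_comp S_T W.sys (CosetSys₂.isInj_ofCosetSys _ _) W.sys_isInj ?_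
    intro x x' e _ _ _
    obtain ⟨d, hd⟩ := W.conjIn e
    refine ⟨(W.τ x)⁻¹ * d * W.τ x', ?_⟩
    rw [sys_rep, sys_rep, map_mul, map_mul, map_inv, ← hd]
    group
  · -- the cosets `Γ₀(M) β_y b⁻¹ τ_x` are pairwise distinct
    refine isInj_comp W.sys S_T' W.sys_isInj (CosetSys₂.isInj_ofCosetSys _ _) ?_
    intro y y' e x x' h
    rw [hrepT', hrepT', sys_rep, sys_rep] at h
    have h1 : heckeRep ℓ y * (W.b⁻¹ * jGL N (W.τ x * (W.τ x')⁻¹) * W.b) =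
        jGL M e * heckeRep ℓ y' := by
      have h2 : W.b⁻¹ * jGL N (W.τ x * (W.τ x')⁻¹) * W.b =
          (W.b⁻¹ * jGL N (W.τ x)) * (W.b⁻¹ * jGL N (W.τ x'))⁻¹ := by
        rw [map_mul, map_inv]
        group
      rw [h2, ← mul_assoc, h]
      group
    obtain ⟨d, hd⟩ := hD y y' e _ h1
    refine ⟨d, ?_⟩
    rw [hrepT', hrepT', ← hd]
    have h3 : jGL M e = heckeRep ℓ y * (W.b⁻¹ * jGL N (W.τ x * (W.τ x')⁻¹) * W.b) *
        (heckeRep ℓ y')⁻¹ := by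
      rw [h1, mul_inv_cancel_right]
    rw [h3]
    group
  · -- `β_y b⁻¹ τ_x ∈ Γ₀(M) b⁻¹ τ_x' β_y'`
    intro x y
    obtain ⟨u, y₁, hu⟩ := hB y
    obtain ⟨d, x', hd⟩ := W.exists_eq_mul (u * heckeCoc N ℓ hℓN (W.τ x) y₁)
    refine ⟨x', redMatrix ℓ ((W.τ x : ↥(Gamma0 N)) : SL(2, ℤ)) • y₁, d, ?_⟩
    rw [hrepT', hrepT, sys_rep, sys_rep]
    have h4 : heckeRep ℓ y₁ * jGL N (W.τ x) = jGL N (heckeCoc N ℓ hℓN (W.τ x) y₁) *
        heckeRep ℓ (redMatrix ℓ ((W.τ x : ↥(Gamma0 N)) : SL(2, ℤ)) • y₁) :=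
      heckeRep_mul_eq N ℓ hℓN (W.τ x) y₁
    calc heckeRep ℓ y * (W.b⁻¹ * jGL N (W.τ x))
        = heckeRep ℓ y * W.b⁻¹ * jGL N (W.τ x) := by rw [mul_assoc]
      _ = W.b⁻¹ * jGL N u * (heckeRep ℓ y₁ * jGL N (W.τ x)) := by rw [hu]; group
      _ = W.b⁻¹ * jGL N u * (jGL N (heckeCoc N ℓ hℓN (W.τ x) y₁) *
            heckeRep ℓ (redMatrix ℓ ((W.τ x : ↥(Gamma0 N)) : SL(2, ℤ)) • y₁)) := by
          rw [h4]
      _ = W.b⁻¹ * jGL N (u * heckeCoc N ℓ hℓN (W.τ x) y₁) *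
            heckeRep ℓ (redMatrix ℓ ((W.τ x : ↥(Gamma0 N)) : SL(2, ℤ)) • y₁) := by
          rw [map_mul]; group
      _ = _ := by rw [hd]; group

include hB hD in
/-- **(R2)**, additive form. -/
theorem coresAdd_heckeAdd {A : Type*} [AddCommGroup A] (φ : Additive ↥(Gamma0 M) →+ A) :
    W.coresAdd (heckeAdd M ℓ hℓM φ) = heckeAdd N ℓ hℓN (W.coresAdd φ) :=
  congrArg MonoidHom.toAdditiveLeft
    (W.coresHom_heckeHom hℓN hℓM hB hD (AddMonoidHom.toMultiplicativeRight φ))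

end Hecke

end TwTrans

end Fermat.Agent.S36.New.CoresGen
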