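/-
S36, block [NEW at q ∣ N], Hom-side, file 1 (NEW-CA): THE CORESTRICTION
`Hom(Γ₀(Nq), A) → Hom(Γ₀(N), A)` FOR `q ∣ N` (= `α_*` along `X₀(Nq) → X₀(N)`, `z ↦ z`).

`q` prime, `q ∣ N`: `[Γ₀(N) : Γ₀(Nq)] = q`, right transversal `ρ_t = [[1, 0], [N t, 1]]`, `t : ZMod q`;
`g ρ_t⁻¹ ∈ Γ₀(Nq) ↔ slope g = t`, `slope g := (g₁₀ / N) / g₁₁ mod q`.

* `slope`, `mul_inv_mem_iff`, `rhoQ`, `permQ`, `cocQ`, `rhoQ_mul`, `existsUnique_mul_inv_mem`;
* `twQ hqN : CoresGen.TwTrans N (N * q) (ZMod q)` (twist `b = 1`);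
* `coresAddQ`, `coresAddQ_apply`, `coresAddQ_comp`, `coresAddQ_mem_parHomAdd`,
  `coresAddQ_heckeAdd` (`ℓ ∤ N q`).
-/
import Mathlib
import Fermat.Agent.S36.New.CoresGen
import Fermat.Agent.P4.Cores

set_option autoImplicit false
set_option linter.unusedSectionVars false

open scoped MatrixGroups

noncomputable section

namespace Fermat.Agent.S36.New.CoresQ

open Matrix.SpecialLinearGroup CongruenceSubgroup ModularForm
open P2MW.S_ModularForm_heckeT_slash_eq_self_of_mem_Gamma0.ModularForm.HeckeSlashInvariance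
open Fermat.Agent.N4F.Tors.HeckeHom Fermat.Agent.P3LR.A.Transfer2 Fermat.Agent.P3LR.A.IntMat
open Fermat.Agent.P4.TransferComm Fermat.Agent.P4.Cores Fermat.Agent.S36.New.CoresGen
open scoped OnePoint

/-! ### Entries of products and inverses in `SL(2, ℤ)` -/

section Entries

theorem det_eq (g : SL(2, ℤ)) : g 0 0 * g 1 1 - g 0 1 * g 1 0 = 1 := by
  have h := g.det_coe
  rw [Matrix.det_fin_two] at h
  exact h

theorem mul_inv_one_zero (g h : SL(2, ℤ)) :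
    (g * h⁻¹) 1 0 = g 1 0 * h 1 1 - g 1 1 * h 1 0 := by
  have h1 : ((g * h⁻¹ : SL(2, ℤ)) : Matrix (Fin 2) (Fin 2) ℤ) =
      (g : Matrix (Fin 2) (Fin 2) ℤ) * Matrix.adjugate (h : Matrix (Fin 2) (Fin 2) ℤ) := by
    rw [Matrix.SpecialLinearGroup.coe_mul, Matrix.SpecialLinearGroup.coe_inv]
  show ((g * h⁻¹ : SL(2, ℤ)) : Matrix (Fin 2) (Fin 2) ℤ) 1 0 = _
  rw [h1, Matrix.adjugate_fin_two, Matrix.mul_apply, Fin.sum_univ_two]
  simp
  ring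

theorem mul_one_zero (g h : SL(2, ℤ)) : (g * h) 1 0 = g 1 0 * h 0 0 + g 1 1 * h 1 0 := by
  simp [Matrix.mul_apply, Fin.sum_univ_two]

theorem mul_one_one (g h : SL(2, ℤ)) : (g * h) 1 1 = g 1 0 * h 0 1 + g 1 1 * h 1 1 := by
  simp [Matrix.mul_apply, Fin.sum_univ_two]

end Entries

variable {N q : ℕ} [NeZero N] [hq : Fact q.Prime]

/-! ### The slope -/

section Slope

/-- `N ∣ g₁₀` for `g ∈ Γ₀(N)` -/
theorem dvd_one_zero {g : SL(2, ℤ)} (hg : g ∈ Gamma0 N) : (N : ℤ) ∣ g 1 0 :=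
  (ZMod.intCast_zmod_eq_zero_iff_dvd _ _).mp (Gamma0_mem.mp hg)

variable (N q) in
/-- the slope `(g₁₀ / N) / g₁₁ mod q` -/
def slope (g : SL(2, ℤ)) : ZMod q :=
  ((g 1 0 / (N : ℤ) : ℤ) : ZMod q) * (((g 1 1 : ℤ) : ZMod q))⁻¹

theorem N_mul_div {g : SL(2, ℤ)} (hg : g ∈ Gamma0 N) : (N : ℤ) * (g 1 0 / (N : ℤ)) = g 1 0 :=
  Int.mul_ediv_cancel' (dvd_one_zero hg)

/-- for `g ∈ Γ₀(N)`, `q ∣ N`: `g₀₀ g₁₁ = 1` in `ZMod q` -/
theorem zero_zero_mul_one_one (hqN : q ∣ N) {g : SL(2, ℤ)} (hg : g ∈ Gamma0 N) :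
    ((g 0 0 : ℤ) : ZMod q) * ((g 1 1 : ℤ) : ZMod q) = 1 := by
  have h1 := det_eq g
  have h2 : ((g 1 0 : ℤ) : ZMod q) = 0 := by
    rw [ZMod.intCast_zmod_eq_zero_iff_dvd]
    exact (Int.natCast_dvd_natCast.mpr hqN).trans (dvd_one_zero hg)
  have h3 := congrArg (fun z : ℤ => (z : ZMod q)) h1
  simp only [Int.cast_sub, Int.cast_mul, Int.cast_one, h2, mul_zero, sub_zero] at h3
  exact h3

theorem one_one_ne_zero (hqN : q ∣ N) {g : SL(2, ℤ)} (hg : g ∈ Gamma0 N) :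
    ((g 1 1 : ℤ) : ZMod q) ≠ 0 := by
  intro h
  have := zero_zero_mul_one_one hqN hg
  rw [h, mul_zero] at this
  exact zero_ne_one this

/-- **Membership criterion**: for `g, h ∈ Γ₀(N)`, `g h⁻¹ ∈ Γ₀(Nq)` iff the slopes agree. -/
theorem mul_inv_mem_iff (hqN : q ∣ N) {g h : SL(2, ℤ)} (hg : g ∈ Gamma0 N) (hh : h ∈ Gamma0 N) :
    g * h⁻¹ ∈ Gamma0 (N * q) ↔ slope N q g = slope N q h := by
  have hN0 : (N : ℤ) ≠ 0 := by exact_mod_cast NeZero.ne N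
  have hg1 := one_one_ne_zero hqN hg
  have hh1 := one_one_ne_zero hqN hh
  rw [Gamma0_mem, ZMod.intCast_zmod_eq_zero_iff_dvd, mul_inv_one_zero]
  have e1 : g 1 0 * h 1 1 - g 1 1 * h 1 0 =
      (N : ℤ) * ((g 1 0 / (N : ℤ)) * h 1 1 - g 1 1 * (h 1 0 / (N : ℤ))) := by
    rw [mul_sub, ← mul_assoc, N_mul_div hg, mul_left_comm, N_mul_div hh]
  rw [e1]
  have e2 : ((N * q : ℕ) : ℤ) = (N : ℤ) * (q : ℤ) := by push_cast; ring
  rw [e2, mul_dvd_mul_iff_left hN0, ← ZMod.intCast_zmod_eq_zero_iff_dvd]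
  push_cast
  rw [sub_eq_zero, slope, slope, ← div_eq_mul_inv, ← div_eq_mul_inv, div_eq_div_iff hg1 hh1,
    mul_comm ((g 1 1 : ℤ) : ZMod q)]

end Slope

/-! ### The explicit transversal -/

section Transversal

variable (N q) in
/-- the matrix `[[1, 0], [N t, 1]]` -/
def rhoMat (t : ZMod q) : Matrix (Fin 2) (Fin 2) ℤ := !![1, 0; (N : ℤ) * (t.val : ℤ), 1]

variable (N q) in
/-- `ρ_t = [[1, 0], [N t, 1]] ∈ SL(2, ℤ)` -/
def rhoSL (t : ZMod q) : SL(2, ℤ) :=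
  ⟨rhoMat N q t, by rw [rhoMat, Matrix.det_fin_two_of]; ring⟩

theorem rhoSL_mem (t : ZMod q) : rhoSL N q t ∈ Gamma0 N := by
  rw [Gamma0_mem, ZMod.intCast_zmod_eq_zero_iff_dvd]
  show (N : ℤ) ∣ rhoMat N q t 1 0
  simp [rhoMat]

variable (N q) in
/-- **the transversal** `ρ : ZMod q → Γ₀(N)` -/
def rhoQ (t : ZMod q) : ↥(Gamma0 N) := ⟨rhoSL N q t, rhoSL_mem t⟩

@[simp] theorem rhoQ_coe (t : ZMod q) : ((rhoQ N q t : ↥(Gamma0 N)) : SL(2, ℤ)) = rhoSL N q t := rfl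

theorem rhoQ_zero : rhoQ N q 0 = 1 := by
  apply Subtype.ext
  apply Subtype.ext
  show rhoMat N q 0 = 1
  ext i j
  fin_cases i <;> fin_cases j <;> simp [rhoMat]

theorem slope_rhoSL (t : ZMod q) : slope N q (rhoSL N q t) = t := by
  have hN0 : (N : ℤ) ≠ 0 := by exact_mod_cast NeZero.ne N
  have h1 : (rhoSL N q t) 1 0 = (N : ℤ) * (t.val : ℤ) := by
    show rhoMat N q t 1 0 = _
    simp [rhoMat]
  have h2 : (rhoSL N q t) 1 1 = 1 := by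
    show rhoMat N q t 1 1 = _
    simp [rhoMat]
  rw [slope, h1, h2, Int.mul_ediv_cancel_left _ hN0]
  simp

/-- the action of `Γ₀(N)` on the index set `ZMod q` -/
def permQ (g : ↥(Gamma0 N)) (t : ZMod q) : ZMod q :=
  slope N q ((rhoQ N q t * g : ↥(Gamma0 N)) : SL(2, ℤ))

theorem cocQ_mem (hqN : q ∣ N) (g : ↥(Gamma0 N)) (t : ZMod q) :
    ((rhoQ N q t * g * (rhoQ N q (permQ g t))⁻¹ : ↥(Gamma0 N)) : SL(2, ℤ)) ∈ Gamma0 (N * q) := by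
  have h := (mul_inv_mem_iff hqN (rhoQ N q t * g).2 (rhoQ N q (permQ g t)).2).2
    (by rw [rhoQ_coe, slope_rhoSL]; rfl)
  exact h

/-- **the cocycle** of the transversal -/
def cocQ (hqN : q ∣ N) (g : ↥(Gamma0 N)) (t : ZMod q) : ↥(Gamma0 (N * q)) :=
  ⟨_, cocQ_mem hqN g t⟩

theorem incl_cocQ (hqN : q ∣ N) (g : ↥(Gamma0 N)) (t : ZMod q) :
    incl N q (cocQ hqN g t) = rhoQ N q t * g * (rhoQ N q (permQ g t))⁻¹ := rfl

/-- **the coset identity** in `Γ₀(N)` -/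
theorem rhoQ_mul' (hqN : q ∣ N) (g : ↥(Gamma0 N)) (t : ZMod q) :
    rhoQ N q t * g = incl N q (cocQ hqN g t) * rhoQ N q (permQ g t) := by
  rw [incl_cocQ, inv_mul_cancel_right]

/-- **the coset identity** in `SL(2, ℤ)` -/
theorem rhoQ_mul (hqN : q ∣ N) (g : ↥(Gamma0 N)) (t : ZMod q) :
    (rhoQ N q t : SL(2, ℤ)) * (g : SL(2, ℤ)) =
      (cocQ hqN g t : SL(2, ℤ)) * (rhoQ N q (permQ g t) : SL(2, ℤ)) := by
  have h := congrArg (fun u : ↥(Gamma0 N) => (u : SL(2, ℤ))) (rhoQ_mul' hqN g t)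
  exact h

/-- the cosets `Γ₀(Nq) ρ_t` are pairwise distinct -/
theorem rhoQ_inj (hqN : q ∣ N) (t t' : ZMod q) (d : ↥(Gamma0 (N * q)))
    (h : rhoQ N q t = incl N q d * rhoQ N q t') : t = t' := by
  have h1 : ((rhoQ N q t : ↥(Gamma0 N)) : SL(2, ℤ)) * ((rhoQ N q t' : ↥(Gamma0 N)) : SL(2, ℤ))⁻¹
      ∈ Gamma0 (N * q) := by
    rw [h]
    show (d : SL(2, ℤ)) * (rhoQ N q t' : SL(2, ℤ)) * ((rhoQ N q t' : ↥(Gamma0 N)) : SL(2, ℤ))⁻¹ ∈ _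
    rw [mul_inv_cancel_right]
    exact d.2
  rw [mul_inv_mem_iff hqN (rhoQ N q t).2 (rhoQ N q t').2, rhoQ_coe, rhoQ_coe, slope_rhoSL,
    slope_rhoSL] at h1
  exact h1

/-- `ρ` is a right transversal of `Γ₀(Nq)` in `Γ₀(N)` (the `hcos` shape of the Kummer side). -/
theorem existsUnique_mul_inv_mem (hqN : q ∣ N) :
    ∀ g ∈ Gamma0 N, ∃! t : ZMod q, g * ((rhoQ N q t : ↥(Gamma0 N)) : SL(2, ℤ))⁻¹ ∈
      Gamma0 (N * q) := by
  intro g hg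
  have key : ∀ t : ZMod q, g * ((rhoQ N q t : ↥(Gamma0 N)) : SL(2, ℤ))⁻¹ ∈ Gamma0 (N * q) ↔
      slope N q g = t := by
    intro t
    rw [mul_inv_mem_iff hqN hg (rhoQ N q t).2, rhoQ_coe, slope_rhoSL]
  exact ⟨_, (key _).2 rfl, fun y hy => ((key y).1 hy).symm⟩

end Transversal

/-! ### The twisted transversal (`b = 1`) and the corestriction -/

section Cores

variable (hqN : q ∣ N)

/-- **The transversal `ρ` as a twisted transversal** with trivial twist. -/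
def twQ : TwTrans N (N * q) (ZMod q) where
  b := 1
  τ := rhoQ N q
  perm := permQ
  coc := cocQ hqN
  rel g t := by
    rw [inv_one, one_mul, one_mul, ← map_mul, rhoQ_mul' hqN g t, map_mul, jGL_incl]
  inj t t' d h := by
    rw [inv_one, one_mul, one_mul, ← jGL_incl, ← map_mul] at h
    exact rhoQ_inj hqN t t' d (jGL_injective N h)
  conjIn e := ⟨incl N q e, by rw [inv_one, mul_one, one_mul, jGL_incl]⟩
  base := 0
  τ_base := rhoQ_zero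

/-- **The corestriction** `Hom(Γ₀(Nq), A) → Hom(Γ₀(N), A)`, `q ∣ N`, additive form:
`(cores φ)(g) = ∑ t : ZMod q, φ (cocQ g t)`. -/
def coresAddQ {A : Type*} [AddCommGroup A] :
    (Additive ↥(Gamma0 (N * q)) →+ A) →+ (Additive ↥(Gamma0 N) →+ A) :=
  (twQ hqN).coresAdd

theorem coresAddQ_apply {A : Type*} [AddCommGroup A] (φ : Additive ↥(Gamma0 (N * q)) →+ A)
    (g : ↥(Gamma0 N)) :
    coresAddQ hqN φ (Additive.ofMul g) = ∑ t : ZMod q, φ (Additive.ofMul (cocQ hqN g t)) :=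
  (twQ hqN).coresAdd_apply φ g

theorem coresAddQ_comp {A B : Type*} [AddCommGroup A] [AddCommGroup B] (f : A →+ B)
    (φ : Additive ↥(Gamma0 (N * q)) →+ A) :
    coresAddQ hqN (f.comp φ) = f.comp (coresAddQ hqN φ) :=
  (twQ hqN).coresAdd_comp f φ

theorem coresAddQ_mem_parHomAdd {A : Type*} [AddCommGroup A]
    {φ : Additive ↥(Gamma0 (N * q)) →+ A} (hφ : φ ∈ parHomAdd (N * q) A) :
    coresAddQ hqN φ ∈ parHomAdd N A :=
  (twQ hqN).coresAdd_mem_parHomAdd hφ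

end Cores

/-! ### (R2): commutation with the Hecke operators `T_ℓ`, `ℓ ∤ N q` -/

section Hecke

variable {ℓ : ℕ} [Fact ℓ.Prime]

omit [NeZero N] hq in
/-- **(H)**, general level: if `β_y g = c β_y'` with `c ∈ Γ₀(M)` and `ℓ ∤ M`, then `g ∈ Γ₀(M)`. -/
theorem mem_Gamma0_of_heckeRep_mul_eq {M : ℕ} (hℓM : ¬ ℓ ∣ M) (g c : SL(2, ℤ))
    (hc : c ∈ Gamma0 M) (y y' : OnePoint (ZMod ℓ))
    (h : heckeRep ℓ y * mapGL ℝ g = mapGL ℝ c * heckeRep ℓ y') : g ∈ Gamma0 M := by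
  rw [heckeRep_eq_glOf, heckeRep_eq_glOf,
    glOf_mul_mapGL_eq_iff (det_hInt_ne_zero ℓ y) (det_hInt_ne_zero ℓ y')] at h
  have h10 := congrFun (congrFun h 1) 0
  rw [Matrix.mul_apply, Matrix.mul_apply, Fin.sum_univ_two, Fin.sum_univ_two, hInt_one_zero,
    hInt_one_zero, zero_mul, zero_add, mul_zero, add_zero] at h10
  have hcM : (M : ℤ) ∣ c 1 0 := (ZMod.intCast_zmod_eq_zero_iff_dvd _ _).mp (Gamma0_mem.mp hc)
  have h1 : (M : ℤ) ∣ g 1 0 * hInt ℓ y 1 1 := by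
    have : hInt ℓ y 1 1 * g 1 0 = c 1 0 * hInt ℓ y' 0 0 := h10
    rw [mul_comm, this]
    exact Dvd.dvd.mul_right hcM _
  have hcop : IsCoprime (M : ℤ) (ℓ : ℤ) := by
    rw [Nat.isCoprime_iff_coprime]
    exact ((Nat.Prime.coprime_iff_not_dvd (Fact.out : ℓ.Prime)).2 hℓM).symm
  have hcop' : IsCoprime (M : ℤ) (hInt ℓ y 1 1) :=
    IsCoprime.of_isCoprime_of_dvd_right hcop (hInt_one_one_dvd y)
  rw [Gamma0_mem, ZMod.intCast_zmod_eq_zero_iff_dvd]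
  exact hcop'.dvd_of_dvd_mul_right h1

variable (hqN : q ∣ N) (hℓN : ¬ ℓ ∣ N) (hℓNq : ¬ ℓ ∣ N * q)

/-- **(R2)**, additive form: `cores ∘ T_ℓ^{Nq} = T_ℓ^N ∘ cores` on `Hom(Γ₀(Nq), A)`, `q ∣ N`. -/
theorem coresAddQ_heckeAdd {A : Type*} [AddCommGroup A] (φ : Additive ↥(Gamma0 (N * q)) →+ A) :
    coresAddQ hqN (heckeAdd (N * q) ℓ hℓNq φ) = heckeAdd N ℓ hℓN (coresAddQ hqN φ) := by
  refine (twQ hqN).coresAdd_heckeAdd hℓN hℓNq ?_ ?_ φ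
  · intro y
    refine ⟨1, y, ?_⟩
    show heckeRep ℓ y * (1 : GL (Fin 2) ℝ)⁻¹ = (1 : GL (Fin 2) ℝ)⁻¹ * jGL N 1 * heckeRep ℓ y
    rw [map_one, inv_one, mul_one, one_mul, one_mul]
  · intro y y' e g h
    have h' : heckeRep ℓ y * mapGL ℝ ((g : ↥(Gamma0 N)) : SL(2, ℤ)) =
        mapGL ℝ ((e : ↥(Gamma0 (N * q))) : SL(2, ℤ)) * heckeRep ℓ y' := by
      have h2 : (twQ hqN).b = 1 := rfl
      rw [h2, inv_one, one_mul, mul_one] at h
      exact h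
    have hg : ((g : ↥(Gamma0 N)) : SL(2, ℤ)) ∈ Gamma0 (N * q) :=
      mem_Gamma0_of_heckeRep_mul_eq hℓNq _ _ e.2 y y' h'
    refine ⟨⟨_, hg⟩, ?_⟩
    show (1 : GL (Fin 2) ℝ)⁻¹ * jGL N g * 1 = _
    rw [inv_one, one_mul, mul_one]
    rfl

/-- `cores` on parabolic homomorphisms -/
def coresParQ (A : Type*) [AddCommGroup A] : parHomAdd (N * q) A →+ parHomAdd N A where
  toFun φ := ⟨coresAddQ hqN φ.1, coresAddQ_mem_parHomAdd hqN φ.2⟩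
  map_zero' := Subtype.ext (map_zero _)
  map_add' _ _ := Subtype.ext (map_add _ _ _)

end Hecke

end Fermat.Agent.S36.New.CoresQ
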