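/-
S36, block [NEW at q ∣ N], node NEW-I (helper2): **the new vector inside `𝒪 ⊗ newT`, for the explicit
Tate data at level `N q`, `q ∣ N`** — instantiation of helper4's general
`P4S35/NewAssembly.exists_new_vector_tateData` at `(M, N) = (N q, N)` with

* `α`-side: the corestriction `CoresQ.coresAddQ hqN` (index `q`, transversal `[[1,0],[N t,1]]`) and
  helper7's `PushAlphaQ.kappa_alphaPush` (Kummer compatibility, every level);
* `β`-side: the `U_q`-type corestriction `CoresBetaQ.coresBetaAddQ hqN` (representatives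
  `[[1,t],[0,q]]`, no Atkin–Lehner) and helper7's `PushBetaQ.kappa_betaPush`.

`exists_new_vector_newTQ` is the second conjunct of `S35Assembly.NewVectorAtPoly` with
`K' := PushTate.newT p N q` and `D := KummerExplicit.tateData (N q) p hES` — now for `q ∣ N`
(`P4S35/NewInstance.exists_new_vector_newT` is the case `q ∤ N`).
-/
import Mathlib
import Fermat.Agent.P4S35.NewAssembly
import Fermat.Agent.P4.PushTate
import Fermat.Agent.S36.New.CoresQ
import Fermat.Agent.S36.New.CoresBetaQ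
import Fermat.Agent.S36.New.PushAlphaQ
import Fermat.Agent.S36.New.PushBetaQ

set_option autoImplicit false
set_option linter.unusedSectionVars false
set_option linter.style.haveILetI false

open CongruenceSubgroup ModularCurve ModularFormClass
open scoped TensorProduct MatrixGroups

noncomputable section

namespace Fermat.Agent.S36.New.NewInstanceQ

open Fermat.Agent.N4F.Tors.HeckeHom Fermat.Agent.N4F.Tors.Outputs Fermat.Agent.M2.ES
  Fermat.Agent.N4F.Adic Fermat.Agent.N4F.Adic.TateModule Fermat.Agent.N4F.Adic.TateJ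
  Fermat.Agent.N4F.Res Fermat.Agent.P4.KummerExplicit Fermat.Agent.P4.TatePush
  Fermat.Agent.P4.Push Fermat.Agent.P4.PushTate
  Fermat.Agent.P3G.AuxPrime Fermat.Agent.P4S35.NewAssembly
  Fermat.Agent.S36.New.CoresQ Fermat.Agent.S36.New.CoresBetaQ

variable {N q : ℕ} [NeZero N] [hq : Fact q.Prime] (hqN : q ∣ N)
  (p : ℕ) [hp : Fact p.Prime] (S : Finset ℕ) (hES : ESOnTorsionAll (N * q))
  {𝒪 : Type} [CommRing 𝒪] [IsDomain 𝒪] [CharZero 𝒪] [Algebra ℤ_[p] 𝒪]

/-- The pair of corestrictions, indexed by `Bool` (`true ↦ α`, `false ↦ β`). -/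
def cPairQ (b : Bool) (A : Type) [AddCommGroup A] :
    (Additive ↥(Gamma0 (N * q)) →+ A) →+ (Additive ↥(Gamma0 N) →+ A) :=
  if b then coresAddQ hqN else coresBetaAddQ hqN

/-- The pair of push-forwards. -/
def piPairQ (b : Bool) : JZero (N * q) →+ JZero N :=
  if b then alphaPush N q else betaPush N q

/-- **Kummer compatibility of `α_*`**, `q ∣ N`. -/
theorem kappa_mapTors_alphaPushQ {n : ℕ} (hn : 0 < n) (y : Jtors (N * q) n) :
    kappa N n (mapTors (alphaPush N q) n y) = coresAddQ hqN (kappa (N * q) n y) := by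
  refine AddMonoidHom.ext fun g => ?_
  obtain ⟨g, rfl⟩ := Additive.ofMul.surjective g
  rw [coresAddQ_apply]
  exact Fermat.Agent.S36.New.PushAlphaQ.kappa_alphaPush
    (fun t : ZMod q => ((rhoQ N q t : ↥(Gamma0 N)) : SL(2, ℤ))) (fun t => (rhoQ N q t).2)
    (CoresQ.existsUnique_mul_inv_mem hqN) permQ (cocQ hqN) (rhoQ_mul hqN) n hn y g

/-- **Kummer compatibility of `β_*`**, `q ∣ N`. -/
theorem kappa_mapTors_betaPushQ {n : ℕ} (hn : 0 < n) (y : Jtors (N * q) n) :
    kappa N n (mapTors (betaPush N q) n y) = coresBetaAddQ hqN (kappa (N * q) n y) := by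
  refine AddMonoidHom.ext fun g => ?_
  obtain ⟨g, rfl⟩ := Additive.ofMul.surjective g
  rw [coresBetaAddQ_apply]
  exact Fermat.Agent.S36.New.PushBetaQ.kappa_betaPush hqN (permBetaQ hqN) (cocBetaQ hqN)
    (permBetaQ_bijective hqN) (heckeMatrix_mul_cocBetaQ hqN) n hn y g

include hqN in
/-- **NEW at `q ∣ N`.** The eigencharacter of a newform of level `N q` (`q ∣ N`) occurs in the image
of `𝒪 ⊗ newT → 𝒪 ⊗ T_p J₀(N q)`. -/
theorem exists_new_vector_newTQ {g : CuspForm (Gamma0 (N * q)) 2} (hg : g.IsNewform)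
    (chig : CuspForm.heckeAlgebra (N * q) 2 (↑S : Set ℕ) →+* ℂ)
    (hchig : ∀ (ℓ : ℕ) (hℓ : ℓ.Prime) (hℓM : ¬ ℓ ∣ N * q) (hℓS : ℓ ∉ (↑S : Set ℕ)),
      chig (CuspForm.heckeAlgebra.T hℓ hℓM hℓS) = qCoeff g ℓ)
    (iota : chig.range →+* 𝒪) :
    ∃ v ∈ LinearMap.range
        ((show Submodule ℤ_[p] (tateData (N * q) p hES).T from newT p N q).subtype.baseChange 𝒪),
      v ≠ 0 ∧ ∀ i, (S30Assembly.tauT (tateData (N * q) p hES) S i).baseChange 𝒪 v =
        S30Assembly.eigenvalue S 𝒪 (iota.comp chig.rangeRestrict) i • v := by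
  have hq1 : q ≠ 1 := hq.out.one_lt.ne'
  have hne : N ≠ N * q := fun h => hq1 (by
    have h2 : N * 1 = N * q := by rw [mul_one]; exact h
    exact (Nat.eq_of_mul_eq_mul_left (Nat.pos_of_ne_zero (NeZero.ne N)) h2).symm)
  refine exists_new_vector_tateData (N := N) p S hES (cPairQ hqN) ?_ ?_ ?_
    (piPairQ (N := N) (q := q)) ?_ hg (Dvd.intro q rfl) hne chig hchig iota _ ?_
  · -- naturality
    intro b A B _ _ φ ψ
    cases b
    · exact coresBetaAddQ_comp hqN φ ψ
    · exact coresAddQ_comp hqN φ ψ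
  · -- parabolic
    intro b ψ
    cases b
    · exact coresBetaAddQ_mem_parHomAdd hqN ψ.2
    · exact coresAddQ_mem_parHomAdd hqN ψ.2
  · -- Hecke
    intro b ℓ _ hℓM hℓN ψ
    cases b
    · exact coresBetaAddQ_heckeAdd hqN hℓN hℓM ψ.1
    · exact coresAddQ_heckeAdd hqN hℓN hℓM ψ.1
  · -- Kummer compatibility
    intro b k y
    cases b
    · exact kappa_mapTors_betaPushQ hqN (Fermat.Agent.P4.KummerExplicit.pow_pos' p k) y
    · exact kappa_mapTors_alphaPushQ hqN (Fermat.Agent.P4.KummerExplicit.pow_pos' p k) y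
  · -- `newT` is the common kernel
    intro z hz
    exact mem_newT_iff.mpr ⟨hz true, hz false⟩

end Fermat.Agent.S36.New.NewInstanceQ
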