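/-
S36, block [NEW at q ∣ N], final glue (helper27): **`Top/Final.NewEigenvectorQ` holds** — helper2's
`NewInstanceQ.exists_new_vector_newTQ` (landed fb83a1b) in the exact shape consumed by
`Top/Final.s36_of_inertiaTorsionBound_of_newEigenvectorQ`, and the resulting one-hypothesis form of
the frozen S36:

* `newEigenvectorQ : NewEigenvectorQ` — unconditional;
* `s36_of_inertiaTorsionBound (hI : InertiaTorsionBound) … : <frozen S36 conclusion>`.
-/
import Mathlib
import Fermat.Agent.S36.Top.Final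
import Fermat.Agent.S36.New.NewInstanceQ

set_option autoImplicit false
set_option linter.style.haveILetI false
set_option linter.unusedSectionVars false
set_option linter.unusedVariables false

open Polynomial

noncomputable section

namespace Fermat.Agent.S36.New.NewFinalQ

open Fermat.Agent.S36.Top.Final

/-- **The lattice input of S36, unconditional.** -/
theorem newEigenvectorQ : NewEigenvectorQ := by
  intro N q _ _ hq hqN hqN2 g hg lam _ hqlam S O' _ _ _ _ _ _ hlamO' chig hchig iota hlamS hMS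
  haveI : Fact q.Prime := ⟨hq⟩
  letI : Algebra ℤ_[lam] O' := Fermat.Agent.P4.S35Assembly.padicAlgebra lam O' hlamO'
  exact Fermat.Agent.S36.New.NewInstanceQ.exists_new_vector_newTQ hqN lam S
    (Fermat.Agent.P4.S35Top.esAll (N * q)) hg chig hchig iota

/-- **Frozen S36 from the geometric input alone.** -/
theorem s36_of_inertiaTorsionBound (hI : InertiaTorsionBound)
    {M : ℕ} [NeZero M] {g : CuspForm (CongruenceSubgroup.Gamma0 M) 2} (hg : g.IsNewform)
    (lam : ℕ) [Fact lam.Prime]
    (S : Finset ℕ)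
    (O' : Type) [CommRing O'] [IsDomain O'] [IsDiscreteValuationRing O']
    [IsAdicComplete (IsLocalRing.maximalIdeal O') O'] [Finite (IsLocalRing.ResidueField O')]
    [CharZero O'] (hlamO' : (lam : O') ∈ IsLocalRing.maximalIdeal O')
    (chig : CuspForm.heckeAlgebra M 2 (↑S : Set ℕ) →+* ℂ)
    (hchig : ∀ (ℓ : ℕ) (hℓ : ℓ.Prime) (hℓM : ¬ ℓ ∣ M) (hℓS : ℓ ∉ (↑S : Set ℕ)),
      chig (CuspForm.heckeAlgebra.T hℓ hℓM hℓS) = ModularFormClass.qCoeff g ℓ)
    (iota : chig.range →+* O')
    (hlamS : lam ∈ S) (hMS : ∀ q : ℕ, q.Prime → q ∣ M → q ∈ S) :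
    ∃ (O'' : Type) (_ : CommRing O'') (_ : IsDomain O'') (_ : IsDiscreteValuationRing O'')
      (_ : IsAdicComplete (IsLocalRing.maximalIdeal O'') O'') (_ : Finite (IsLocalRing.ResidueField O''))
      (_ : CharZero O'') (_ : Algebra O' O'') (_ : Module.Finite O' O'') (_ : IsLocalHom (algebraMap O' O'')),
      Function.Injective (algebraMap O' O'') ∧
      ∃ ρ : GaloisRepAdic O'',
        (∀ (ℓ : ℕ) (hℓ : ℓ.Prime) (hℓM : ¬ ℓ ∣ M) (hℓS : ℓ ∉ (↑S : Set ℕ)),
          ∀ A : ValuationSubring (AlgebraicClosure ℚ), A.LiesOverPrime ℓ →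
            ∀ σ : AlgebraicClosure ℚ ≃ₐ[ℚ] AlgebraicClosure ℚ, A.IsFrobeniusAt σ ℓ →
              LinearMap.charpoly (ρ.ρ σ) =
                X ^ 2 - C (algebraMap O' O'' ((iota.comp chig.rangeRestrict) (CuspForm.heckeAlgebra.T hℓ hℓM hℓS))) * X
                  + C ((ℓ : O''))) ∧
        (∀ q : ℕ, q.Prime → q ≠ lam → M.factorization q = 2 → ¬ ρ.IsUnipotentOnInertiaAt q) :=
  s36_of_inertiaTorsionBound_of_newEigenvectorQ hI newEigenvectorQ hg lam S O' hlamO' chig hchig
    iota hlamS hMS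

end Fermat.Agent.S36.New.NewFinalQ
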