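/-
S36, block [NEW at q ∣ N], Hom-side, file 2 (NEW-CB): THE `β`-CORESTRICTION
`Hom(Γ₀(Nq), A) → Hom(Γ₀(N), A)` FOR `q ∣ N` (= `β_*` along `X₀(Nq) → X₀(N)`, `z ↦ q z`),
WITHOUT Atkin–Lehner.

`q` prime, `q ∣ N`.  The coset system has the representatives `heckeMatrix q t = [[1, t], [0, q]]`,
`t : ZMod q` (`= b⁻¹ T^t`, `b⁻¹ = heckeMatrix q 0 = diag(1, q)`), i.e. it is the coset system of `U_q` of
`S16/Lower/USystem` (helper22), whose cocycle `uCoc g t` has lower left entry `q g₁₀`, hence lies in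
`Γ₀(N q)`.

* `tauQ`, `heckeMatrix_zero_mul_tauQ`;
* `permBetaQ`, `cocBetaQ`, `heckeMatrix_mul_cocBetaQ` (the coset identity
  `heckeMatrix q t * g = cocBetaQ g t * heckeMatrix q (permBetaQ g t)`), `permBetaQ_bijective`;
* `twBetaQ hqN : CoresGen.TwTrans N (N * q) (ZMod q)` (twist `b = (heckeMatrix q 0)⁻¹`);
* `coresBetaAddQ`, `coresBetaAddQ_apply`, `coresBetaAddQ_comp`, `coresBetaAddQ_mem_parHomAdd`,
  `coresBetaAddQ_heckeAdd` (`ℓ ∤ N q`), `coresBetaParQ`.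
-/
import Mathlib
import Fermat.Agent.S36.New.CoresQ
import Fermat.Agent.S16.Lower.USystem

set_option autoImplicit false
set_option linter.unusedSectionVars false
set_option linter.style.haveILetI false

open scoped MatrixGroups

noncomputable section

namespace Fermat.Agent.S36.New.CoresBetaQ

open Matrix.SpecialLinearGroup CongruenceSubgroup ModularForm
open P2MW.S_ModularForm_heckeT_slash_eq_self_of_mem_Gamma0.ModularForm.HeckeSlashInvariance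
open Fermat.Agent.N4F.Tors.HeckeHom Fermat.Agent.P3LR.A.Transfer2 Fermat.Agent.P3LR.A.IntMat
open Fermat.Agent.P4.TransferComm Fermat.Agent.P4.Cores Fermat.Agent.S36.New.CoresGen
open Fermat.Agent.S36.New.CoresQ Fermat.Agent.S16.Lower.USystem
open scoped OnePoint

/-! ### The matrices `[[1, j], [0, q]]` and `[[1, j], [0, 1]]` over `ℤ` -/

section IntMatrices

/-- the integer matrix `[[1, j], [0, q]]` of `heckeMatrix q j` -/
def hmInt (q j : ℕ) : MI := !![1, (j : ℤ); 0, (q : ℤ)]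

theorem det_hmInt (q j : ℕ) : (hmInt q j).det = q := by
  rw [hmInt, Matrix.det_fin_two_of]
  ring

theorem det_hmInt_ne_zero (q : ℕ) [NeZero q] (j : ℕ) : (hmInt q j).det ≠ 0 := by
  rw [det_hmInt]
  exact_mod_cast NeZero.ne q

theorem heckeMatrix_eq_glOf (q : ℕ) [NeZero q] (j : ℕ) : heckeMatrix q j = glOf (hmInt q j) := by
  apply Units.ext
  rw [coe_glOf (det_hmInt_ne_zero q j), val_heckeMatrix (NeZero.ne q)]
  ext i k
  fin_cases i <;> fin_cases k <;> simp [hmInt]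

/-- the integer matrix `[[1, j], [0, 1]]` -/
def tauMat (j : ℕ) : MI := !![1, (j : ℤ); 0, 1]

/-- `T^j = [[1, j], [0, 1]] ∈ SL(2, ℤ)` -/
def tauSL (j : ℕ) : SL(2, ℤ) := ⟨tauMat j, by rw [tauMat, Matrix.det_fin_two_of]; ring⟩

theorem tauSL_mem (N j : ℕ) : tauSL j ∈ Gamma0 N := by
  rw [Gamma0_mem]
  show ((tauMat j 1 0 : ℤ) : ZMod N) = 0
  simp [tauMat]

theorem hmInt_zero_mul_tauMat (q j : ℕ) : hmInt q 0 * tauMat j = hmInt q j := by
  ext i k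
  fin_cases i <;> fin_cases k <;> simp [hmInt, tauMat, Matrix.mul_apply, Fin.sum_univ_two]

end IntMatrices

variable {N q : ℕ} [NeZero N] [hq : Fact q.Prime]

/-! ### The transversal `T^t` and the coset identity -/

section Transversal

variable (N q) in
/-- **the transversal** `t ↦ T^t ∈ Γ₀(N)`, `t : ZMod q` -/
def tauQ (t : ZMod q) : ↥(Gamma0 N) := ⟨tauSL t.val, tauSL_mem N t.val⟩

theorem tauQ_zero : tauQ N q 0 = 1 := by
  apply Subtype.ext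
  apply Subtype.ext
  show tauMat (0 : ZMod q).val = 1
  rw [ZMod.val_zero]
  ext i j
  fin_cases i <;> fin_cases j <;> simp [tauMat]

/-- `heckeMatrix q 0 * T^t = heckeMatrix q t` -/
theorem heckeMatrix_zero_mul_tauQ (t : ZMod q) :
    heckeMatrix q 0 * jGL N (tauQ N q t) = heckeMatrix q t.val := by
  have : NeZero q := ⟨hq.out.ne_zero⟩
  rw [heckeMatrix_eq_glOf, heckeMatrix_eq_glOf, jGL_eq_glOf,
    ← glOf_mul (det_hmInt_ne_zero q 0) (det_coe_SL _)]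
  congr 1
  exact hmInt_zero_mul_tauMat q t.val

/-- the action of `Γ₀(N)` on the index set `ZMod q` (= helper22's `uPerm`) -/
def permBetaQ (hqN : q ∣ N) (g : ↥(Gamma0 N)) (t : ZMod q) : ZMod q := uPerm N q hqN g t

theorem permBetaQ_bijective (hqN : q ∣ N) (g : ↥(Gamma0 N)) :
    Function.Bijective (permBetaQ hqN g) := (uPerm N q hqN g).bijective

theorem cocBetaQ_mem (hqN : q ∣ N) (g : ↥(Gamma0 N)) (t : ZMod q) :
    ((uCoc N q hqN g t : ↥(Gamma0 N)) : SL(2, ℤ)) ∈ Gamma0 (N * q) := by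
  rw [Gamma0_mem, ZMod.intCast_zmod_eq_zero_iff_dvd, (uCoc_entries N q hqN g t).2.1]
  have h : (N : ℤ) ∣ (g : SL(2, ℤ)) 1 0 := dvd_one_zero g.2
  have e : ((N * q : ℕ) : ℤ) = (q : ℤ) * (N : ℤ) := by push_cast; ring
  rw [e]
  exact mul_dvd_mul_left _ h

/-- **the cocycle** of the `β`-coset system, with values in `Γ₀(N q)` -/
def cocBetaQ (hqN : q ∣ N) (g : ↥(Gamma0 N)) (t : ZMod q) : ↥(Gamma0 (N * q)) :=
  ⟨_, cocBetaQ_mem hqN g t⟩

theorem incl_cocBetaQ (hqN : q ∣ N) (g : ↥(Gamma0 N)) (t : ZMod q) :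
    incl N q (cocBetaQ hqN g t) = uCoc N q hqN g t := rfl

/-- **the coset identity** `[[1, t], [0, q]] * g = cocBetaQ g t * [[1, t'], [0, q]]`,
`t' = permBetaQ g t` (the `hrep` shape of the Kummer side) -/
theorem heckeMatrix_mul_cocBetaQ (hqN : q ∣ N) (g : ↥(Gamma0 N)) (t : ZMod q) :
    heckeMatrix q t.val * mapGL ℝ (g : SL(2, ℤ)) =
      mapGL ℝ ((cocBetaQ hqN g t : ↥(Gamma0 (N * q))) : SL(2, ℤ)) *
        heckeMatrix q (permBetaQ hqN g t).val :=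
  Fermat.Agent.S16.Lower.USystem.heckeMatrix_mul_eq N q hqN g t

end Transversal

/-! ### Conjugation by `diag(1, q)` -/

section Conj

/-- `e ↦ [[e₀₀, q e₀₁], [e₁₀ / q, e₁₁]]` -/
def conjUpMat (q : ℕ) (e : SL(2, ℤ)) : MI := !![e 0 0, (q : ℤ) * e 0 1; e 1 0 / (q : ℤ), e 1 1]

theorem det_conjUpMat {q : ℕ} {e : SL(2, ℤ)} (h : (q : ℤ) ∣ e 1 0) : (conjUpMat q e).det = 1 := by
  obtain ⟨c, hc⟩ := h
  rw [conjUpMat, Matrix.det_fin_two_of, hc]
  rcases eq_or_ne (q : ℤ) 0 with h0 | h0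
  · have := CoresQ.det_eq e
    rw [hc, h0] at this
    rw [h0]
    simp only [zero_mul, Int.zero_ediv, mul_zero, sub_zero] at this ⊢
    exact this
  · rw [Int.mul_ediv_cancel_left _ h0]
    have := CoresQ.det_eq e
    rw [hc] at this
    linear_combination this

/-- `g ↦ [[g₀₀, g₀₁ / q], [q g₁₀, g₁₁]]` -/
def conjDownMat (q : ℕ) (g : SL(2, ℤ)) : MI := !![g 0 0, g 0 1 / (q : ℤ); (q : ℤ) * g 1 0, g 1 1]

theorem det_conjDownMat {q : ℕ} {g : SL(2, ℤ)} (h : (q : ℤ) ∣ g 0 1) :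
    (conjDownMat q g).det = 1 := by
  obtain ⟨c, hc⟩ := h
  rw [conjDownMat, Matrix.det_fin_two_of, hc]
  rcases eq_or_ne (q : ℤ) 0 with h0 | h0
  · have := CoresQ.det_eq g
    rw [hc, h0] at this
    rw [h0]
    simp only [zero_mul, Int.zero_ediv, mul_zero, sub_zero] at this ⊢
    exact this
  · rw [Int.mul_ediv_cancel_left _ h0]
    have := CoresQ.det_eq g
    rw [hc] at this
    linear_combination this

theorem q_mul_ediv {q : ℕ} {a : ℤ} (h : (q : ℤ) ∣ a) : (q : ℤ) * (a / (q : ℤ)) = a :=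
  Int.mul_ediv_cancel' h

theorem hmInt_zero_mul_conjUpMat {q : ℕ} {e : SL(2, ℤ)} (h : (q : ℤ) ∣ e 1 0) :
    hmInt q 0 * conjUpMat q e = (e : MI) * hmInt q 0 := by
  ext i k
  fin_cases i <;> fin_cases k <;>
    simp [hmInt, conjUpMat, Matrix.mul_apply, Fin.sum_univ_two, q_mul_ediv h, mul_comm]

theorem hmInt_zero_mul_eq_conjDownMat_mul {q : ℕ} {g : SL(2, ℤ)} (h : (q : ℤ) ∣ g 0 1) :
    hmInt q 0 * (g : MI) = conjDownMat q g * hmInt q 0 := by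
  have h' : g 0 1 / (q : ℤ) * (q : ℤ) = g 0 1 := Int.ediv_mul_cancel h
  ext i k
  fin_cases i <;> fin_cases k <;>
    simp [hmInt, conjDownMat, Matrix.mul_apply, Fin.sum_univ_two, h', mul_comm]

/-- `e ↦ diag(1,q)⁻¹ e diag(1,q)`, for `q ∣ e₁₀` -/
def conjUpSL (q : ℕ) (e : SL(2, ℤ)) (h : (q : ℤ) ∣ e 1 0) : SL(2, ℤ) :=
  ⟨conjUpMat q e, det_conjUpMat h⟩

/-- `g ↦ diag(1,q) g diag(1,q)⁻¹`, for `q ∣ g₀₁` -/
def conjDownSL (q : ℕ) (g : SL(2, ℤ)) (h : (q : ℤ) ∣ g 0 1) : SL(2, ℤ) :=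
  ⟨conjDownMat q g, det_conjDownMat h⟩

theorem heckeMatrix_zero_mul_conjUpSL (q : ℕ) [NeZero q] (e : SL(2, ℤ)) (h : (q : ℤ) ∣ e 1 0) :
    heckeMatrix q 0 * mapGL ℝ (conjUpSL q e h) = mapGL ℝ e * heckeMatrix q 0 := by
  rw [heckeMatrix_eq_glOf,
    glOf_mul_mapGL_eq_iff (det_hmInt_ne_zero q 0) (det_hmInt_ne_zero q 0)]
  exact hmInt_zero_mul_conjUpMat h

theorem heckeMatrix_zero_mul_eq_conjDownSL_mul (q : ℕ) [NeZero q] (g : SL(2, ℤ))
    (h : (q : ℤ) ∣ g 0 1) :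
    heckeMatrix q 0 * mapGL ℝ g = mapGL ℝ (conjDownSL q g h) * heckeMatrix q 0 := by
  rw [heckeMatrix_eq_glOf,
    glOf_mul_mapGL_eq_iff (det_hmInt_ne_zero q 0) (det_hmInt_ne_zero q 0)]
  exact hmInt_zero_mul_eq_conjDownMat_mul h

theorem conjUpSL_mem {N q : ℕ} [NeZero q] {e : SL(2, ℤ)} (he : e ∈ Gamma0 (N * q))
    (h : (q : ℤ) ∣ e 1 0) : conjUpSL q e h ∈ Gamma0 N := by
  have hq0 : (q : ℤ) ≠ 0 := by exact_mod_cast NeZero.ne q
  have h1 : ((N * q : ℕ) : ℤ) ∣ e 1 0 :=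
    (ZMod.intCast_zmod_eq_zero_iff_dvd _ _).mp (Gamma0_mem.mp he)
  rw [Gamma0_mem, ZMod.intCast_zmod_eq_zero_iff_dvd]
  show (N : ℤ) ∣ conjUpMat q e 1 0
  have h2 : conjUpMat q e 1 0 = e 1 0 / (q : ℤ) := by simp [conjUpMat]
  rw [h2]
  obtain ⟨c, hc⟩ := h1
  rw [hc]
  have e1 : ((N * q : ℕ) : ℤ) * c = (q : ℤ) * ((N : ℤ) * c) := by push_cast; ring
  rw [e1, Int.mul_ediv_cancel_left _ hq0]
  exact Dvd.intro _ rfl

theorem conjDownSL_mem {N q : ℕ} {g : SL(2, ℤ)} (hg : g ∈ Gamma0 N)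
    (h : (q : ℤ) ∣ g 0 1) : conjDownSL q g h ∈ Gamma0 (N * q) := by
  have h1 : (N : ℤ) ∣ g 1 0 := (ZMod.intCast_zmod_eq_zero_iff_dvd _ _).mp (Gamma0_mem.mp hg)
  rw [Gamma0_mem, ZMod.intCast_zmod_eq_zero_iff_dvd]
  show ((N * q : ℕ) : ℤ) ∣ conjDownMat q g 1 0
  have h2 : conjDownMat q g 1 0 = (q : ℤ) * g 1 0 := by simp [conjDownMat]
  rw [h2]
  have e1 : ((N * q : ℕ) : ℤ) = (q : ℤ) * (N : ℤ) := by push_cast; ring
  rw [e1]
  exact mul_dvd_mul_left _ h1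

end Conj

/-! ### The twisted transversal (`b = (heckeMatrix q 0)⁻¹`) and the corestriction -/

section Cores

variable (hqN : q ∣ N)

/-- **The `β`-transversal as a twisted transversal**: representatives
`heckeMatrix q 0 * T^t = heckeMatrix q t`. -/
def twBetaQ : TwTrans N (N * q) (ZMod q) where
  b := (heckeMatrix q 0)⁻¹
  τ := tauQ N q
  perm := permBetaQ hqN
  coc := cocBetaQ hqN
  rel g t := by
    rw [inv_inv, heckeMatrix_zero_mul_tauQ, heckeMatrix_zero_mul_tauQ]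
    exact heckeMatrix_mul_cocBetaQ hqN g t
  inj t t' d h := by
    rw [inv_inv, heckeMatrix_zero_mul_tauQ, heckeMatrix_zero_mul_tauQ] at h
    exact heckeMatrix_inj q t t' (d : SL(2, ℤ)) h
  conjIn e := by
    have : NeZero q := ⟨hq.out.ne_zero⟩
    have h1 : (q : ℤ) ∣ ((e : ↥(Gamma0 (N * q))) : SL(2, ℤ)) 1 0 := dvd_of_mem_Gamma0_mul e.2
    refine ⟨⟨conjUpSL q _ h1, conjUpSL_mem e.2 h1⟩, ?_⟩
    rw [inv_inv, mul_assoc, inv_mul_eq_iff_eq_mul]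
    exact (heckeMatrix_zero_mul_conjUpSL q _ h1).symm
  base := 0
  τ_base := tauQ_zero

/-- **The `β`-corestriction** `Hom(Γ₀(Nq), A) → Hom(Γ₀(N), A)`, `q ∣ N`, additive form:
`(cores_β φ)(g) = ∑ t : ZMod q, φ (cocBetaQ g t)`. -/
def coresBetaAddQ {A : Type*} [AddCommGroup A] :
    (Additive ↥(Gamma0 (N * q)) →+ A) →+ (Additive ↥(Gamma0 N) →+ A) :=
  (twBetaQ hqN).coresAdd

theorem coresBetaAddQ_apply {A : Type*} [AddCommGroup A]
    (φ : Additive ↥(Gamma0 (N * q)) →+ A) (g : ↥(Gamma0 N)) :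
    coresBetaAddQ hqN φ (Additive.ofMul g) =
      ∑ t : ZMod q, φ (Additive.ofMul (cocBetaQ hqN g t)) :=
  (twBetaQ hqN).coresAdd_apply φ g

theorem coresBetaAddQ_comp {A B : Type*} [AddCommGroup A] [AddCommGroup B] (f : A →+ B)
    (φ : Additive ↥(Gamma0 (N * q)) →+ A) :
    coresBetaAddQ hqN (f.comp φ) = f.comp (coresBetaAddQ hqN φ) :=
  (twBetaQ hqN).coresAdd_comp f φ

theorem coresBetaAddQ_mem_parHomAdd {A : Type*} [AddCommGroup A]
    {φ : Additive ↥(Gamma0 (N * q)) →+ A} (hφ : φ ∈ parHomAdd (N * q) A) :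
    coresBetaAddQ hqN φ ∈ parHomAdd N A :=
  (twBetaQ hqN).coresAdd_mem_parHomAdd hφ

end Cores

/-! ### (R2): commutation with the Hecke operators `T_ℓ`, `ℓ ∤ N q` -/

section Hecke

variable {ℓ : ℕ} [Fact ℓ.Prime]

omit [NeZero N] hq in
/-- **(B)** over `ℤ`: `β_y diag(1,q) = diag(1,q) T^k β_{y'}`. -/
theorem exists_hInt_mul_hmInt (q : ℕ) (y : OnePoint (ZMod ℓ)) :
    ∃ (k : ℕ) (y' : OnePoint (ZMod ℓ)),
      hInt ℓ y * hmInt q 0 = hmInt q 0 * tauMat k * hInt ℓ y' := by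
  have hℓ : ℓ ≠ 0 := (Fact.out : ℓ.Prime).ne_zero
  haveI : NeZero ℓ := ⟨hℓ⟩
  induction y using OnePoint.rec with
  | infty =>
    refine ⟨0, ∞, ?_⟩
    ext i k
    fin_cases i <;> fin_cases k <;>
      simp [hmInt, tauMat, Matrix.mul_apply, Fin.sum_univ_two, mul_comm]
  | coe j =>
    refine ⟨q * j.val / ℓ, (((q * j.val : ℕ) : ZMod ℓ) : OnePoint (ZMod ℓ)), ?_⟩
    have h1 : (((q * j.val : ℕ) : ZMod ℓ).val : ℤ) + (ℓ : ℤ) * ((q * j.val / ℓ : ℕ) : ℤ) =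
        (q : ℤ) * (j.val : ℤ) := by
      rw [ZMod.val_natCast]
      exact_mod_cast Nat.mod_add_div (q * j.val) ℓ
    ext i k
    fin_cases i <;> fin_cases k
    · simp [hmInt, tauMat, Matrix.mul_apply, Fin.sum_univ_two]
    · simp only [hInt_coe, hmInt, tauMat, Matrix.mul_apply, Fin.sum_univ_two, Fin.zero_eta,
        Fin.mk_one, Matrix.of_apply, Matrix.cons_val', Matrix.cons_val_zero, Matrix.cons_val_one,
        Matrix.cons_val_fin_one]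
      push_cast at h1 ⊢
      linear_combination -h1
    · simp [hmInt, tauMat, Matrix.mul_apply, Fin.sum_univ_two]
    · simp [hmInt, tauMat, Matrix.mul_apply, Fin.sum_univ_two, mul_comm]

variable (hqN : q ∣ N) (hℓN : ¬ ℓ ∣ N) (hℓNq : ¬ ℓ ∣ N * q)

omit [NeZero N] in
/-- **(B)** in `GL₂(ℝ)`. -/
theorem exists_heckeRep_mul_heckeMatrix_zero (N : ℕ) (y : OnePoint (ZMod ℓ)) :
    ∃ (u : ↥(Gamma0 N)) (y' : OnePoint (ZMod ℓ)),
      heckeRep ℓ y * heckeMatrix q 0 = heckeMatrix q 0 * jGL N u * heckeRep ℓ y' := by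
  haveI : NeZero q := ⟨hq.out.ne_zero⟩
  haveI : NeZero ℓ := ⟨(Fact.out : ℓ.Prime).ne_zero⟩
  obtain ⟨k, y', h⟩ := exists_hInt_mul_hmInt (ℓ := ℓ) q y
  refine ⟨⟨tauSL k, tauSL_mem N k⟩, y', ?_⟩
  have hk : (tauMat k).det ≠ 0 := det_coe_SL (tauSL k)
  rw [heckeRep_eq_glOf, heckeRep_eq_glOf, heckeMatrix_eq_glOf, jGL_eq_glOf,
    ← glOf_mul (det_hInt_ne_zero ℓ y) (det_hmInt_ne_zero q 0),
    ← glOf_mul (det_hmInt_ne_zero q 0) (det_coe_SL _),
    ← glOf_mul (by rw [Matrix.det_mul]; exact mul_ne_zero (det_hmInt_ne_zero q 0) (det_coe_SL _))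
      (det_hInt_ne_zero ℓ y')]
  congr 1

omit [NeZero N] in
/-- **(D)** over `ℤ`: if `β_y diag(1,q) g = e β_{y'} diag(1,q)` then `q ∣ g₀₁` (`q ≠ ℓ`). -/
theorem dvd_zero_one_of_eq (hqℓ : q ≠ ℓ) (y y' : OnePoint (ZMod ℓ)) (g e : SL(2, ℤ))
    (h : hInt ℓ y * hmInt q 0 * (g : MI) = (e : MI) * (hInt ℓ y' * hmInt q 0)) :
    (q : ℤ) ∣ g 0 1 := by
  have h01 := congrFun (congrFun h 0) 1
  simp only [Matrix.mul_apply, Fin.sum_univ_two, hmInt, Matrix.of_apply, Matrix.cons_val',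
    Matrix.cons_val_zero, Matrix.cons_val_one, Matrix.cons_val_fin_one, mul_one, mul_zero,
    add_zero] at h01
  -- `h01 : (H₀₀ * g₀₀ + H₀₁ q * g₁₀ ...)`; we only need divisibility by `q`
  have h1 : (q : ℤ) ∣ hInt ℓ y 0 0 * g 0 1 := by
    have e1 : hInt ℓ y 0 0 * g 0 1 =
        (q : ℤ) * (e 0 0 * hInt ℓ y' 0 1 + e 0 1 * hInt ℓ y' 1 1 - hInt ℓ y 0 1 * g 1 1) := by
      linear_combination h01
    rw [e1]
    exact Dvd.intro _ rfl
  have hcop : IsCoprime (q : ℤ) (ℓ : ℤ) := by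
    rw [Nat.isCoprime_iff_coprime]
    exact (Nat.coprime_primes hq.out (Fact.out : ℓ.Prime)).2 hqℓ
  have hcop' : IsCoprime (q : ℤ) (hInt ℓ y 0 0) :=
    IsCoprime.of_isCoprime_of_dvd_right hcop (hInt_zero_zero_dvd y)
  exact hcop'.dvd_of_dvd_mul_left h1

/-- **(R2)**, additive form: `cores_β ∘ T_ℓ^{Nq} = T_ℓ^N ∘ cores_β` on `Hom(Γ₀(Nq), A)`, `q ∣ N`. -/
theorem coresBetaAddQ_heckeAdd {A : Type*} [AddCommGroup A]
    (φ : Additive ↥(Gamma0 (N * q)) →+ A) :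
    coresBetaAddQ hqN (heckeAdd (N * q) ℓ hℓNq φ) =
      heckeAdd N ℓ hℓN (coresBetaAddQ hqN φ) := by
  haveI : NeZero q := ⟨hq.out.ne_zero⟩
  haveI : NeZero ℓ := ⟨(Fact.out : ℓ.Prime).ne_zero⟩
  have hqℓ : q ≠ ℓ := fun h => hℓN (h ▸ hqN)
  have hb : (twBetaQ hqN).b⁻¹ = heckeMatrix q 0 := inv_inv _
  have hb' : (twBetaQ hqN).b = (heckeMatrix q 0)⁻¹ := rfl
  refine (twBetaQ hqN).coresAdd_heckeAdd hℓN hℓNq ?_ ?_ φ
  · intro y
    rw [hb]
    exact exists_heckeRep_mul_heckeMatrix_zero N y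
  · intro y y' e g h
    rw [hb, hb'] at h ⊢
    -- `β_y D g = e β_{y'} D`
    have h1 : heckeRep ℓ y * heckeMatrix q 0 * mapGL ℝ ((g : ↥(Gamma0 N)) : SL(2, ℤ)) =
        mapGL ℝ ((e : ↥(Gamma0 (N * q))) : SL(2, ℤ)) * (heckeRep ℓ y' * heckeMatrix q 0) := by
      have h2 : heckeRep ℓ y * heckeMatrix q 0 * jGL N g =
          heckeRep ℓ y * (heckeMatrix q 0 * jGL N g * (heckeMatrix q 0)⁻¹) * heckeMatrix q 0 := by
        group
      have h3 : heckeRep ℓ y * heckeMatrix q 0 * jGL N g =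
          jGL (N * q) e * (heckeRep ℓ y' * heckeMatrix q 0) := by
        rw [h2, h, mul_assoc]
      exact h3
    have hA : (hInt ℓ y * hmInt q 0).det ≠ 0 := by
      rw [Matrix.det_mul]
      exact mul_ne_zero (det_hInt_ne_zero ℓ y) (det_hmInt_ne_zero q 0)
    have hB : (hInt ℓ y' * hmInt q 0).det ≠ 0 := by
      rw [Matrix.det_mul]
      exact mul_ne_zero (det_hInt_ne_zero ℓ y') (det_hmInt_ne_zero q 0)
    rw [heckeRep_eq_glOf, heckeRep_eq_glOf, heckeMatrix_eq_glOf,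
      ← glOf_mul (det_hInt_ne_zero ℓ y) (det_hmInt_ne_zero q 0),
      ← glOf_mul (det_hInt_ne_zero ℓ y') (det_hmInt_ne_zero q 0),
      glOf_mul_mapGL_eq_iff hA hB] at h1
    have hq01 : (q : ℤ) ∣ ((g : ↥(Gamma0 N)) : SL(2, ℤ)) 0 1 :=
      dvd_zero_one_of_eq hqℓ y y' _ _ h1
    refine ⟨⟨conjDownSL q _ hq01, conjDownSL_mem g.2 hq01⟩, ?_⟩
    rw [mul_inv_eq_iff_eq_mul]
    exact heckeMatrix_zero_mul_eq_conjDownSL_mul q _ hq01

/-- `cores_β` on parabolic homomorphisms -/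
def coresBetaParQ (A : Type*) [AddCommGroup A] : parHomAdd (N * q) A →+ parHomAdd N A where
  toFun φ := ⟨coresBetaAddQ hqN φ.1, coresBetaAddQ_mem_parHomAdd hqN φ.2⟩
  map_zero' := Subtype.ext (map_zero _)
  map_add' _ _ := Subtype.ext (map_add _ _ _)

end Hecke

end Fermat.Agent.S36.New.CoresBetaQ
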