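/-
S36, block [NEW at q ∣ N], glue (helper7): THE `β`-KUMMER COMPATIBILITY `hπ` OF
`P4S35/NewAssembly.exists_new_vector_tateData` AT `(M, N) = (N q, N)`, `q ∣ N`, FOR helper2's
`β`-CORESTRICTION.

* `kappa_mapTors_betaPushQ` : `κ^N_n (β_* y) = coresBetaAddQ (κ^{N q}_n y)`
  (`PushBetaQ.kappa_betaPush` fed with `CoresBetaQ.{permBetaQ, cocBetaQ, permBetaQ_bijective,
  heckeMatrix_mul_cocBetaQ}`).
-/
import Mathlib
import Fermat.Agent.S36.New.PushBetaQ
import Fermat.Agent.S36.New.CoresBetaQ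

set_option autoImplicit false
set_option linter.unusedSectionVars false

open CongruenceSubgroup ModularCurve AlgebraicCurve
open scoped MatrixGroups

noncomputable section

namespace Fermat.Agent.S36.New.PushInstBetaQ

open Fermat.Agent.N4F.Res Fermat.Agent.P4.KummerExplicit Fermat.Agent.P4.TatePush
open Fermat.Agent.P3G.AuxPrime Fermat.Agent.P4.Push
open Fermat.Agent.S36.New.CoresBetaQ

variable {N q : ℕ} [NeZero N] [hq : Fact q.Prime] (hqN : q ∣ N)

/-- **(N4b) at `q ∣ N`**: `κ^N_n (β_* y) = coresBetaAddQ (κ^{N q}_n y)`. -/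
theorem kappa_mapTors_betaPushQ {n : ℕ} (hn : 0 < n) (y : Jtors (N * q) n) :
    kappa N n (mapTors (betaPush N q) n y) = coresBetaAddQ hqN (kappa (N * q) n y) := by
  refine AddMonoidHom.ext fun g => ?_
  obtain ⟨g, rfl⟩ := Additive.ofMul.surjective g
  rw [coresBetaAddQ_apply]
  exact PushBetaQ.kappa_betaPush hqN (permBetaQ hqN) (cocBetaQ hqN) (permBetaQ_bijective hqN)
    (heckeMatrix_mul_cocBetaQ hqN) n hn y g

end Fermat.Agent.S36.New.PushInstBetaQ
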