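/-
S36, block [NEW at q ∣ N], glue (helper7): THE TWO KUMMER COMPATIBILITIES `hπ` OF
`P4S35/NewAssembly.exists_new_vector_tateData` AT `(M, N) = (N q, N)`, `q ∣ N`, FOR helper2's
CORESTRICTIONS.

* `kappa_mapTors_alphaPushQ` : `κ^N_n (α_* y) = coresAddQ (κ^{N q}_n y)`
  (`PushAlphaQ.kappa_alphaPush` fed with `CoresQ.{rhoQ, permQ, cocQ, rhoQ_mul}`).
-/
import Mathlib
import Fermat.Agent.S36.New.PushAlphaQ
import Fermat.Agent.S36.New.CoresQ

set_option autoImplicit false
set_option linter.unusedSectionVars false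

open CongruenceSubgroup ModularCurve AlgebraicCurve
open scoped MatrixGroups

noncomputable section

namespace Fermat.Agent.S36.New.PushInstQ

open Fermat.Agent.N4F.Res Fermat.Agent.P4.KummerExplicit Fermat.Agent.P4.TatePush
open Fermat.Agent.P3G.AuxPrime Fermat.Agent.P4.Push
open Fermat.Agent.S36.New.CoresQ

variable {N q : ℕ} [NeZero N] [hq : Fact q.Prime] (hqN : q ∣ N)

/-- **(N4a) at `q ∣ N`**: `κ^N_n (α_* y) = coresAddQ (κ^{N q}_n y)`. -/
theorem kappa_mapTors_alphaPushQ {n : ℕ} (hn : 0 < n) (y : Jtors (N * q) n) :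
    kappa N n (mapTors (alphaPush N q) n y) = coresAddQ hqN (kappa (N * q) n y) := by
  refine AddMonoidHom.ext fun g => ?_
  obtain ⟨g, rfl⟩ := Additive.ofMul.surjective g
  rw [coresAddQ_apply]
  exact PushAlphaQ.kappa_alphaPush (fun t : ZMod q => ((rhoQ N q t : ↥(Gamma0 N)) : SL(2, ℤ)))
    (fun t => (rhoQ N q t).2) (existsUnique_mul_inv_mem hqN) permQ (cocQ hqN)
    (rhoQ_mul hqN) n hn y g

end Fermat.Agent.S36.New.PushInstQ
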